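import Mathlib
import Fermat.Agent.CFT.LC.Basic

/-!
# Cyclic classes with `S`-unit cochains

`G` acts on an abelian group `A`, `E ≤ A` is a `G`-stable subgroup, `χ : G → ℤ/p` a surjective
homomorphism.  Let `a ∈ A^G` be such that modulo `E` it is the norm `∏_{j<p} σ^j d` of an element
`d` which is, modulo `E`, fixed by `ker χ`.  We produce an explicit `μ_p`-valued 2-cocycle
cohomologous to the cyclic cocycle `c(g,h) = a^{[i(g)+i(h) ≥ p]}`.
-/

set_option autoImplicit false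

namespace Fermat.Agent.CFT.D3

open Fermat.Agent.CFT.LC

section MulCochains

variable {G : Type*} [Group G] {A : Type*} [CommGroup A] [MulDistribMulAction G A]

/-- multiplicative coboundary of a 1-cochain -/
def mdiff (b : G → A) : G × G → A := fun x => x.1 • b x.2 * b x.1 / b (x.1 * x.2)

@[simp] theorem mdiff_apply (b : G → A) (x : G × G) :
    mdiff b x = x.1 • b x.2 * b x.1 / b (x.1 * x.2) := rfl

theorem mdiff_mul (b b' : G → A) : mdiff (b * b') = mdiff b * mdiff b' := by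
  ext x
  simp only [mdiff_apply, Pi.mul_apply, smul_mul']
  rw [div_mul_div_comm, mul_mul_mul_comm]

theorem mdiff_inv (b : G → A) : mdiff b⁻¹ = (mdiff b)⁻¹ := by
  ext x
  simp only [mdiff_apply, Pi.inv_apply, smul_inv']
  rw [div_inv_eq_mul, inv_div, div_eq_mul_inv, mul_inv, mul_comm]

theorem mdiff_div (b b' : G → A) : mdiff (b / b') = mdiff b / mdiff b' := by
  rw [div_eq_mul_inv, mdiff_mul, mdiff_inv, ← div_eq_mul_inv]

theorem mdiff_pow (b : G → A) (n : ℕ) : mdiff (b ^ n) = mdiff b ^ n := by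
  induction n with
  | zero =>
    ext x
    simp [smul_one]
  | succ n ih => rw [pow_succ, mdiff_mul, ih, pow_succ]

theorem mdiff_coboundary (x : A) : mdiff (fun g : G => g • x / x) = 1 := by
  ext y
  simp only [mdiff_apply, Pi.one_apply, smul_div', smul_smul]
  rw [div_mul_div_cancel, div_self']

/-- smooth elements -/
def SmoothEl (L : Lvl G) (x : A) : Prop := ∃ N ∈ L.levels, ∀ s ∈ N, s • x = x

theorem SmoothEl.isLC₁ {L : Lvl G} {x : A} (h : SmoothEl L x) : IsLC₁ L (fun g => g • x) := by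
  obtain ⟨N, hN, h1⟩ := h
  exact ⟨N, hN, fun g s hs => by simp only [mul_smul, h1 s hs]⟩

theorem SmoothEl.mul {L : Lvl G} {x y : A} (hx : SmoothEl L x) (hy : SmoothEl L y) :
    SmoothEl L (x * y) := by
  obtain ⟨N, hN, h1⟩ := hx
  obtain ⟨N', hN', h2⟩ := hy
  obtain ⟨W, hW, h3, h4⟩ := L.directed N hN N' hN'
  exact ⟨W, hW, fun s hs => by rw [smul_mul', h1 s (h3 hs), h2 s (h4 hs)]⟩

theorem SmoothEl.inv {L : Lvl G} {x : A} (hx : SmoothEl L x) : SmoothEl L x⁻¹ := by
  obtain ⟨N, hN, h1⟩ := hx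
  exact ⟨N, hN, fun s hs => by rw [smul_inv', h1 s hs]⟩

theorem smoothEl_one {L : Lvl G} : SmoothEl L (1 : A) := by
  obtain ⟨N, hN⟩ := L.nonempty
  exact ⟨N, hN, fun s _ => smul_one s⟩

theorem SmoothEl.div {L : Lvl G} {x y : A} (hx : SmoothEl L x) (hy : SmoothEl L y) :
    SmoothEl L (x / y) := by
  rw [div_eq_mul_inv]
  exact hx.mul hy.inv

theorem SmoothEl.smul {L : Lvl G} {x : A} (hx : SmoothEl L x) (g : G) : SmoothEl L (g • x) := by
  obtain ⟨N, hN, h1⟩ := hx
  have := L.normal N hN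
  refine ⟨N, hN, fun s hs => ?_⟩
  have h2 : s • g • x = g • (g⁻¹ * s * g) • x := by
    rw [smul_smul, smul_smul]
    congr 1
    group
  rw [h2, h1]
  have := this.conj_mem s hs g⁻¹
  simpa using this

theorem SmoothEl.prod {L : Lvl G} {ι : Type*} (s : Finset ι) (f : ι → A)
    (h : ∀ i ∈ s, SmoothEl L (f i)) : SmoothEl L (∏ i ∈ s, f i) := by
  classical
  induction s using Finset.induction_on with
  | empty => simpa using smoothEl_one
  | insert a s ha ih =>
    rw [Finset.prod_insert ha]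
    exact (h a (Finset.mem_insert_self _ _)).mul (ih fun i hi => h i (Finset.mem_insert_of_mem hi))

theorem SmoothEl.pow {L : Lvl G} {x : A} (hx : SmoothEl L x) (n : ℕ) : SmoothEl L (x ^ n) := by
  obtain ⟨N, hN, h1⟩ := hx
  exact ⟨N, hN, fun s hs => by rw [smul_pow', h1 s hs]⟩

theorem exists_level_of_finite_smooth {L : Lvl G} {s : Set A} (hs : s.Finite)
    (h : ∀ x ∈ s, SmoothEl L x) : ∃ N ∈ L.levels, ∀ g ∈ N, ∀ x ∈ s, g • x = x := by
  have : Finite s := hs
  have h' : ∀ x : s, ∃ N ∈ L.levels, ∀ g ∈ N, g • (x : A) = x := fun x => h x x.2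
  choose N hN h1 using h'
  obtain ⟨W, hW, h2⟩ := L.exists_level_le_finite N hN
  exact ⟨W, hW, fun g hg x hx => h1 ⟨x, hx⟩ g (h2 ⟨x, hx⟩ hg)⟩

theorem isLC₂_mdiff {L : Lvl G} {b : G → A} (hb : IsLC₁ L b) (hsm : ∀ g, SmoothEl L (b g)) :
    IsLC₂ L (mdiff b) := by
  have h1 : IsLC₂ L (fun x : G × G => x.1 • b x.2) := by
    obtain ⟨N, hN, h2⟩ := exists_level_of_finite_smooth hb.finite_range
      (by rintro _ ⟨g, rfl⟩; exact hsm g)
    obtain ⟨N', hN', h3⟩ := hb
    obtain ⟨W, hW, h4, h5⟩ := L.directed N hN N' hN'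
    refine ⟨W, hW, fun g g' s hs s' hs' => ?_⟩
    simp only
    rw [h3 g' s' (h5 hs'), mul_smul, h2 s (h4 hs) _ ⟨g', rfl⟩]
  have h2 := ((h1.prod hb.fst).prod hb.mul).comp (fun t : (A × A) × A => t.1.1 * t.1.2 / t.2)
  exact h2

end MulCochains

section Core

variable {G : Type*} [Group G] {A : Type*} [CommGroup A] [MulDistribMulAction G A]
variable {p : ℕ} [NeZero p]

/-- the exponent `i(g) ∈ {0,…,p-1}` -/
def ix (χ : G →* Multiplicative (ZMod p)) (g : G) : ℕ := (χ g).toAdd.val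

theorem ix_lt (χ : G →* Multiplicative (ZMod p)) (g : G) : ix χ g < p := ZMod.val_lt _

theorem ix_mul (χ : G →* Multiplicative (ZMod p)) (g h : G) :
    ix χ (g * h) = if p ≤ ix χ g + ix χ h then ix χ g + ix χ h - p else ix χ g + ix χ h := by
  have h1 : ix χ (g * h) = (ix χ g + ix χ h) % p := by
    unfold ix
    rw [map_mul, toAdd_mul, ZMod.val_add]
  rw [h1]
  have hg := ix_lt χ g
  have hh := ix_lt χ h
  split_ifs with h2
  · rw [Nat.mod_eq_sub_mod h2, Nat.mod_eq_of_lt (by omega)]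
  · exact Nat.mod_eq_of_lt (by omega)

/-- the cyclic 2-cocycle -/
def cyc (χ : G →* Multiplicative (ZMod p)) (a : A) : G × G → A :=
  fun x => if p ≤ ix χ x.1 + ix χ x.2 then a else 1

/-- if the values of `χ`-independent... the cochain `g ↦ a ^ i(g)` bounds `c^p`. -/
theorem mdiff_pow_ix (χ : G →* Multiplicative (ZMod p)) {a : A} (ha : ∀ g : G, g • a = a) :
    mdiff (fun g => a ^ ix χ g) = cyc χ a ^ p := by
  ext x
  simp only [mdiff_apply, cyc, Pi.pow_apply, smul_pow', ha, ix_mul]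
  split_ifs with h
  · rw [div_eq_iff_eq_mul, ← pow_add, ← pow_add]
    congr 1
    omega
  · rw [one_pow, div_eq_one, ← pow_add, add_comm]

variable (χ : G →* Multiplicative (ZMod p)) (σ : G)

/-- `δ(g) = ∏_{j < i(g)} σ^j d` -/
def dlt (d : A) (g : G) : A := ∏ j ∈ Finset.range (ix χ g), σ ^ j • d

/-- `β = ∏_{j<p} ∏_{l<j} σ^l d` -/
def bet (p : ℕ) (d : A) : A := ∏ j ∈ Finset.range p, ∏ l ∈ Finset.range j, σ ^ l • d

variable {χ σ}
variable {E : Subgroup A}

/-- equality modulo `E` -/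
abbrev qt (E : Subgroup A) : A →* A ⧸ E := QuotientGroup.mk' E

theorem qt_eq_one_iff {x : A} : qt E x = 1 ↔ x ∈ E := QuotientGroup.eq_one_iff x

theorem qt_smul_congr (hE : ∀ g : G, ∀ x ∈ E, g • x ∈ E) {x y : A} (h : qt E x = qt E y) (g : G) : qt E (g • x) = qt E (g • y) := by
  rw [← div_eq_one, ← map_div, qt_eq_one_iff] at h ⊢
  rw [← smul_div']
  exact hE g _ h

/-- `g` acts on `d` modulo `E` through `χ` -/
theorem qt_smul_eq (hσ : χ σ = Multiplicative.ofAdd 1) {d : A}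
    (hd : ∀ g : G, χ g = 1 → g • d / d ∈ E)
    (hE : ∀ g : G, ∀ x ∈ E, g • x ∈ E) (g : G) : qt E (g • d) = qt E (σ ^ ix χ g • d) := by
  have h1 : χ ((σ ^ ix χ g)⁻¹ * g) = 1 := by
    rw [map_mul, map_inv, map_pow, hσ, ← ofAdd_nsmul]
    unfold ix
    rw [nsmul_one, ZMod.natCast_val, ZMod.cast_id', id, ofAdd_toAdd, inv_mul_cancel]
  have h2 := hd _ h1
  rw [← qt_eq_one_iff, map_div, div_eq_one] at h2
  have h3 := qt_smul_congr hE h2 (σ ^ ix χ g)
  rwa [smul_smul, mul_inv_cancel_left] at h3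

omit [NeZero p] in
theorem ix_pow_sigma (hσ : χ σ = Multiplicative.ofAdd 1) (j : ℕ) :
    ix χ (σ ^ j) = j % p := by
  unfold ix
  rw [map_pow, hσ, ← ofAdd_nsmul, toAdd_ofAdd, nsmul_one, ZMod.val_natCast]

theorem qt_smul_pow_congr (hE : ∀ g : G, ∀ x ∈ E, g • x ∈ E) (hσ : χ σ = Multiplicative.ofAdd 1) {d : A}
    (hd : ∀ g : G, χ g = 1 → g • d / d ∈ E) (j : ℕ) :
    qt E (σ ^ (j + p) • d) = qt E (σ ^ j • d) := by
  have h1 := qt_smul_eq (E := E) hσ hd hE (σ ^ (j + p))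
  have h2 := qt_smul_eq (E := E) hσ hd hE (σ ^ j)
  rw [h1, h2, ix_pow_sigma hσ, ix_pow_sigma hσ, Nat.add_mod_right]

theorem qt_smul_shift (hE : ∀ g : G, ∀ x ∈ E, g • x ∈ E) (hσ : χ σ = Multiplicative.ofAdd 1) {d : A}
    (hd : ∀ g : G, χ g = 1 → g • d / d ∈ E) (g : G) (j : ℕ) :
    qt E (g • σ ^ j • d) = qt E (σ ^ (ix χ g + j) • d) := by
  rw [smul_smul, qt_smul_eq (E := E) hσ hd hE, qt_smul_eq (E := E) hσ hd hE (σ ^ (ix χ g + j)),
    ix_pow_sigma hσ]
  congr 3
  unfold ix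
  rw [map_mul, map_pow, hσ, ← ofAdd_nsmul, toAdd_mul, toAdd_ofAdd, nsmul_one, ZMod.val_add,
    ZMod.val_natCast, Nat.add_mod_mod]

/-- the key congruence: `∂δ ≡ c` modulo `E`. -/
theorem qt_mdiff_dlt (hE : ∀ g : G, ∀ x ∈ E, g • x ∈ E) (hσ : χ σ = Multiplicative.ofAdd 1) {d a : A}
    (hd : ∀ g : G, χ g = 1 → g • d / d ∈ E)
    (ha : a / ∏ j ∈ Finset.range p, σ ^ j • d ∈ E) (x : G × G) :
    qt E (mdiff (dlt χ σ d) x) = qt E (cyc χ a x) := by
  obtain ⟨g, h⟩ := x
  have h1 : qt E (g • dlt χ σ d h) = ∏ j ∈ Finset.range (ix χ h), qt E (σ ^ (ix χ g + j) • d) := by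
    unfold dlt
    rw [Finset.smul_prod', map_prod]
    exact Finset.prod_congr rfl fun j _ => qt_smul_shift hE hσ hd g j
  have h2 : qt E (g • dlt χ σ d h * dlt χ σ d g) =
      ∏ j ∈ Finset.range (ix χ g + ix χ h), qt E (σ ^ j • d) := by
    rw [map_mul, h1, Finset.prod_range_add, mul_comm]
    congr 1
    unfold dlt
    rw [map_prod]
  rw [mdiff_apply, map_div, h2]
  have ha' : qt E a = ∏ j ∈ Finset.range p, qt E (σ ^ j • d) := by
    rw [← map_prod, ← div_eq_one, ← map_div, qt_eq_one_iff]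
    exact ha
  unfold cyc
  rw [div_eq_iff_eq_mul]
  unfold dlt
  rw [map_prod]
  simp only [ix_mul]
  split_ifs with hp
  · rw [ha']
    obtain ⟨k, hk⟩ := Nat.exists_eq_add_of_le hp
    rw [hk, Nat.add_sub_cancel_left, Finset.prod_range_add]
    congr 1
    refine Finset.prod_congr rfl fun j _ => ?_
    rw [add_comm p j]
    exact qt_smul_pow_congr hE hσ hd j
  · rw [map_one, one_mul]

/-- the second key congruence: `a^{i(g)} δ(g)^{-p} ≡ g β / β` -/
theorem qt_bet (hE : ∀ g : G, ∀ x ∈ E, g • x ∈ E) (hσ : χ σ = Multiplicative.ofAdd 1) {d a : A}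
    (hd : ∀ g : G, χ g = 1 → g • d / d ∈ E)
    (ha : a / ∏ j ∈ Finset.range p, σ ^ j • d ∈ E) (g : G) :
    a ^ ix χ g * bet σ p d / (dlt χ σ d g ^ p * (g • bet σ p d)) ∈ E := by
  rw [← qt_eq_one_iff, map_div, div_eq_one, map_mul, map_mul, map_pow, map_pow]
  have ha' : qt E a = ∏ j ∈ Finset.range p, qt E (σ ^ j • d) := by
    rw [← map_prod, ← div_eq_one, ← map_div, qt_eq_one_iff]
    exact ha
  set D : ℕ → A ⧸ E := fun j => qt E (σ ^ j • d) with hD
  have hper : ∀ j, D (j + p) = D j := fun j => qt_smul_pow_congr hE hσ hd j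
  have h1 : qt E (bet σ p d) = ∏ j ∈ Finset.range p, ∏ l ∈ Finset.range j, D l := by
    unfold bet
    rw [map_prod]
    exact Finset.prod_congr rfl fun j _ => by rw [map_prod]
  have h2 : qt E (g • bet σ p d) =
      ∏ j ∈ Finset.range p, ∏ l ∈ Finset.range j, D (ix χ g + l) := by
    unfold bet
    rw [Finset.smul_prod', map_prod]
    refine Finset.prod_congr rfl fun j _ => ?_
    rw [Finset.smul_prod', map_prod]
    exact Finset.prod_congr rfl fun l _ => qt_smul_shift hE hσ hd g l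
  have h3 : qt E (dlt χ σ d g) = ∏ j ∈ Finset.range (ix χ g), D j := by
    unfold dlt
    rw [map_prod]
  rw [ha', h1, h2, h3]
  -- combinatorial identity, by induction on `ix χ g`
  generalize ix χ g = n
  have hN : ∀ n : ℕ, ∏ l ∈ Finset.range p, D (n + l) = ∏ j ∈ Finset.range p, D j := by
    intro n
    induction n with
    | zero => simp
    | succ n ih =>
      rw [← ih]
      have hp : p = (p - 1) + 1 := by
        have := NeZero.pos p
        omega
      have e1 : ∏ l ∈ Finset.range p, D (n + 1 + l) =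
          (∏ l ∈ Finset.range (p - 1), D (n + 1 + l)) * D (n + p) := by
        conv_lhs => rw [hp]
        rw [Finset.prod_range_succ]
        congr 2
        omega
      have e2 : ∏ l ∈ Finset.range p, D (n + l) =
          (∏ l ∈ Finset.range (p - 1), D (n + 1 + l)) * D n := by
        conv_lhs => rw [hp]
        rw [Finset.prod_range_succ']
        congr 1
        refine Finset.prod_congr rfl fun l _ => ?_
        congr 1
        omega
      rw [e1, e2, hper]
  induction n with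
  | zero => simp
  | succ n ih =>
    -- `B(n+1) = B(n) * N / D(n)^p`
    have hstep : ∀ n : ℕ, (∏ j ∈ Finset.range p, ∏ l ∈ Finset.range j, D (n + 1 + l)) * D n ^ p =
        (∏ j ∈ Finset.range p, ∏ l ∈ Finset.range j, D (n + l)) *
          ∏ j ∈ Finset.range p, D j := by
      intro n
      rw [← hN n, ← Finset.prod_mul_distrib]
      have e3 : ∀ j, (∏ l ∈ Finset.range j, D (n + l)) * D (n + j) =
          (∏ l ∈ Finset.range j, D (n + 1 + l)) * D n := by
        intro j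
        rw [← Finset.prod_range_succ, Finset.prod_range_succ']
        congr 1
        refine Finset.prod_congr rfl fun l _ => ?_
        congr 1
        omega
      rw [Finset.prod_congr rfl fun j _ => e3 j, Finset.prod_mul_distrib, Finset.prod_const,
        Finset.card_range]
    rw [pow_succ, Finset.prod_range_succ, mul_pow]
    have h4 := hstep n
    calc (∏ j ∈ Finset.range p, D j) ^ n * (∏ j ∈ Finset.range p, D j) *
          ∏ j ∈ Finset.range p, ∏ l ∈ Finset.range j, D l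
        = ((∏ j ∈ Finset.range p, D j) ^ n *
          ∏ j ∈ Finset.range p, ∏ l ∈ Finset.range j, D l) * ∏ j ∈ Finset.range p, D j := by
          rw [mul_right_comm]
      _ = ((∏ j ∈ Finset.range n, D j) ^ p *
          ∏ j ∈ Finset.range p, ∏ l ∈ Finset.range j, D (n + l)) * ∏ j ∈ Finset.range p, D j := by
          rw [ih]
      _ = (∏ j ∈ Finset.range n, D j) ^ p * ((∏ j ∈ Finset.range p, ∏ l ∈ Finset.range j,
          D (n + 1 + l)) * D n ^ p) := by rw [h4, mul_assoc]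
      _ = _ := by
          rw [mul_comm (∏ j ∈ Finset.range p, ∏ l ∈ Finset.range j, D (n + 1 + l)), mul_assoc]

/-- **Core lemma.** -/
theorem exists_cocycle (L : Lvl G) (hχ : L.IsOpen χ.ker) (hσ : χ σ = Multiplicative.ofAdd 1)
    (hE : ∀ g : G, ∀ x ∈ E, g • x ∈ E)
    (hdiv : ∀ x ∈ E, SmoothEl L x → ∃ y : A, SmoothEl L y ∧ y ^ p = x)
    {d a : A} (hds : SmoothEl L d) (haG : ∀ g : G, g • a = a)
    (hd : ∀ g : G, χ g = 1 → g • d / d ∈ E)
    (ha : a / ∏ j ∈ Finset.range p, σ ^ j • d ∈ E) :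
    ∃ b : G → A, IsLC₁ L b ∧ (∀ g, SmoothEl L (b g)) ∧
      IsLC₂ L (cyc χ a / mdiff b) ∧ (cyc χ a / mdiff b) ^ p = 1 := by
  obtain ⟨N₀, hN₀, hN₀χ⟩ := hχ
  have hix : IsLC₁ L (ix χ) := ⟨N₀, hN₀, fun g s hs => by
    unfold ix
    rw [map_mul, (MonoidHom.mem_ker).mp (hN₀χ hs), mul_one]⟩
  have hsa : SmoothEl L a := ⟨N₀, hN₀, fun s _ => haG s⟩
  have hsd : ∀ g, SmoothEl L (dlt χ σ d g) := fun g =>
    SmoothEl.prod _ _ fun j _ => hds.smul _
  have hsb : SmoothEl L (bet σ p d) :=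
    SmoothEl.prod _ _ fun j _ => SmoothEl.prod _ _ fun l _ => hds.smul _
  have hdltLC : IsLC₁ L (dlt χ σ d) :=
    hix.comp fun n => ∏ j ∈ Finset.range n, σ ^ j • d
  let u : G → A := fun g => a ^ ix χ g * bet σ p d / (dlt χ σ d g ^ p * (g • bet σ p d))
  have huE : ∀ g, u g ∈ E := fun g => qt_bet hE hσ hd ha g
  have hus : ∀ g, SmoothEl L (u g) := fun g =>
    ((hsa.pow _).mul hsb).div (((hsd g).pow p).mul (hsb.smul g))
  have huLC : IsLC₁ L u :=
    ((hix.prod (hdltLC.prod hsb.isLC₁)).comp fun t : ℕ × A × A =>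
      a ^ t.1 * bet σ p d / (t.2.1 ^ p * t.2.2))
  classical
  have hch : ∀ x : A, ∃ y : A, (x ∈ E ∧ SmoothEl L x) → (SmoothEl L y ∧ y ^ p = x) := by
    intro x
    by_cases hx : x ∈ E ∧ SmoothEl L x
    · obtain ⟨y, hy⟩ := hdiv x hx.1 hx.2
      exact ⟨y, fun _ => hy⟩
    · exact ⟨1, fun h => absurd h hx⟩
  choose r hr using hch
  let v : G → A := fun g => r (u g)
  have hv : ∀ g, SmoothEl L (v g) ∧ v g ^ p = u g := fun g => hr (u g) ⟨huE g, hus g⟩
  have hvLC : IsLC₁ L v := huLC.comp r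
  have hbLC : IsLC₁ L (dlt χ σ d * v) := (hdltLC.prod hvLC).comp fun t => t.1 * t.2
  have hbs : ∀ g, SmoothEl L ((dlt χ σ d * v) g) := fun g => (hsd g).mul (hv g).1
  have hcycLC : IsLC₂ L (cyc χ a) :=
    (hix.fst.prod hix.snd).comp fun t : ℕ × ℕ => if p ≤ t.1 + t.2 then a else 1
  refine ⟨dlt χ σ d * v, hbLC, hbs, ?_, ?_⟩
  · exact (hcycLC.prod (isLC₂_mdiff hbLC hbs)).comp fun t => t.1 / t.2
  · have h1 : (dlt χ σ d * v) ^ p =
        (fun g => a ^ ix χ g) * (fun g => g • bet σ p d / bet σ p d)⁻¹ := by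
      ext g
      simp only [Pi.pow_apply, Pi.mul_apply, Pi.inv_apply, mul_pow, (hv g).2, u]
      generalize dlt χ σ d g ^ p = t
      rw [inv_div, div_eq_mul_inv, mul_inv, div_eq_mul_inv, mul_comm t, mul_assoc, mul_assoc,
        mul_assoc]
      congr 2
      rw [mul_comm t⁻¹, mul_assoc, mul_inv_cancel, mul_one]
    rw [div_pow, ← mdiff_pow, h1, mdiff_mul, mdiff_inv, mdiff_coboundary, inv_one, mul_one,
      mdiff_pow_ix χ haG, div_self']

end Core

end Fermat.Agent.CFT.D3
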