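import Mathlib
import Fermat.Agent.CFT.Hasse.Mu

/-!
# Symbols: classes in `H²(W, μ)` attached to invariant elements

`Sym ρ L θ ξ c b` : the class `c ∈ H²(W, μ)` becomes the cyclic class of `b` in `H²(W, A)`.
-/

set_option autoImplicit false
set_option linter.unusedSectionVars false

namespace Fermat.Agent.CFT.D3

open Fermat.Agent.CFT.LC Fermat.Agent.CFT.Hasse

section Sym

variable {p : ℕ} [hp : Fact p.Prime] {W : Type*} [Group W] {L : Lvl W} {χc : W →* (ZMod p)ˣ}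
  {A : Type*} [CommGroup A] [MulDistribMulAction W A] {ξ : A}
  {ρ : Representation (ZMod p) W (ZMod p)}
  {θ : W →* Multiplicative (ZMod p)}

/-- The class `c ∈ H²(W, μ)` becomes the cyclic class of `b` in `H²(W, A)`. -/
def Sym (ρ : Representation (ZMod p) W (ZMod p)) (L : Lvl W) (θ : W →* Multiplicative (ZMod p))
    (ξ : A) (c : LC.H2 ρ L) (b : A) : Prop :=
  ∃ z : Z2 ρ L, H2.mk ρ L z = c ∧ ∃ f : W → A, IsLC₁ L f ∧
    ∀ x, zp ξ (z.1 x) = cyc θ b x * mdiff f x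

theorem zp_nsmul (h : ξ ^ p = 1) (n : ℕ) (c : ZMod p) : zp ξ (n • c) = zp ξ c ^ n := by
  induction n with
  | zero => rw [zero_smul, zp_zero, pow_zero]
  | succ n ih => rw [succ_nsmul, zp_add h, ih, pow_succ]

theorem Sym.add (h : ξ ^ p = 1) {c c' : LC.H2 ρ L} {b b' : A} (hc : Sym ρ L θ ξ c b)
    (hc' : Sym ρ L θ ξ c' b') : Sym ρ L θ ξ (c + c') (b * b') := by
  obtain ⟨z, rfl, f, hf, hz⟩ := hc
  obtain ⟨z', rfl, f', hf', hz'⟩ := hc'
  refine ⟨z + z', map_add _ _ _, f * f', (hf.prod hf').comp fun t => t.1 * t.2, fun x => ?_⟩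
  show zp ξ (z.1 x + z'.1 x) = _
  rw [zp_add h, hz, hz', cyc_mul, mdiff_mul, Pi.mul_apply, Pi.mul_apply, mul_mul_mul_comm]

theorem Sym.neg (h : ξ ^ p = 1) {c : LC.H2 ρ L} {b : A} (hc : Sym ρ L θ ξ c b) :
    Sym ρ L θ ξ (-c) b⁻¹ := by
  obtain ⟨z, rfl, f, hf, hz⟩ := hc
  refine ⟨-z, map_neg _ _, f⁻¹, hf.comp fun t => t⁻¹, fun x => ?_⟩
  show zp ξ (-(z.1 x)) = _
  rw [zp_neg h, hz, cyc_inv, mdiff_inv, Pi.inv_apply, Pi.inv_apply, mul_inv]

theorem Sym.zero : Sym ρ L θ ξ (0 : LC.H2 ρ L) (1 : A) := by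
  refine ⟨0, map_zero _, 1, isLC₁_const 1, fun x => ?_⟩
  show zp ξ (0 : ZMod p) = _
  rw [zp_zero, cyc_one]
  simp

theorem Sym.nsmul (h : ξ ^ p = 1) {c : LC.H2 ρ L} {b : A} (hc : Sym ρ L θ ξ c b) (n : ℕ) :
    Sym ρ L θ ξ (n • c) (b ^ n) := by
  induction n with
  | zero => rw [zero_smul, pow_zero]; exact Sym.zero
  | succ n ih => rw [succ_nsmul, pow_succ]; exact ih.add h hc

variable (K : KData p L χc A ξ) (hρ : ∀ g x, ρ g x = (χc g : ZMod p) * x)

include K hρ in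
/-- Every invariant element has a symbol. -/
theorem exists_sym (hθ : L.IsOpen θ.ker) {b : A} (hb : ∀ g : W, g • b = b) :
    ∃ c : LC.H2 ρ L, Sym ρ L θ ξ c b := by
  obtain ⟨z, hzl, hzc, f, hf, hz⟩ := K.exists_z2_cyc hθ hb
  refine ⟨H2.mk ρ L ⟨z, ?_⟩, ⟨z, ?_⟩, rfl, f, hf, hz⟩ <;>
  · rw [mem_Z2]
    exact ⟨fun g h j => by rw [hρ]; exact hzc g h j, hzl⟩

include K hρ in
/-- The symbol of a norm vanishes. -/
theorem Sym.eq_zero (h90 : H90 L ⊤ A) {σ : W} (hσ : θ σ = Multiplicative.ofAdd 1)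
    (hθ : L.IsOpen θ.ker) {c : LC.H2 ρ L} {b : A} (hc : Sym ρ L θ ξ c b) {y : A}
    (hy : ∀ v : W, θ v = 1 → v • y = y) (hb : b = ∏ i ∈ Finset.range p, σ ^ i • y) : c = 0 := by
  obtain ⟨z, rfl, f, hf, hz⟩ := hc
  have h1 := cyc_eq_mdiff_of_norm hσ hy hb
  rw [H2.mk_eq_zero_iff]
  obtain ⟨w, hw, hw'⟩ := K.exists_cob h90 (z := z.1) (f := dlt θ σ y * f)
    (((isLC₁_dlt hθ y).prod hf).comp fun t => t.1 * t.2) (fun x => by
      rw [hz, h1, mdiff_mul]; rfl)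
  refine ⟨w, hw, ?_⟩
  ext ⟨g, h⟩
  rw [d1_apply, hρ]
  exact (hw' g h).symm

include K hρ in
/-- If the symbol vanishes then the element is a norm. -/
theorem Sym.exists_norm (h90 : H90 L θ.ker A) {σ : W} (hσ : θ σ = Multiplicative.ofAdd 1)
    {b : A} (hc : Sym ρ L θ ξ (0 : LC.H2 ρ L) b) :
    ∃ y : A, (∀ v : W, θ v = 1 → v • y = y) ∧ b = ∏ i ∈ Finset.range p, σ ^ i • y := by
  obtain ⟨z, hz0, f, hf, hz⟩ := hc
  rw [H2.mk_eq_zero_iff] at hz0
  obtain ⟨w, hw, hw'⟩ := hz0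
  refine norm_of_cyc_eq_mdiff hσ h90 (f := (fun g => zp ξ (w g)) / f)
    (((hw.comp (zp ξ)).prod hf).comp fun t : A × A => t.1 / t.2) ?_
  rw [mdiff_div]
  ext ⟨g, h⟩
  have h1 := congrFun hw' (g, h)
  rw [d1_apply, hρ] at h1
  have h2 := hz (g, h)
  rw [← h1] at h2
  simp only at h2
  rw [K.zp_d1 w g h] at h2
  rw [Pi.div_apply, h2, mul_div_cancel_right]

include K hρ in
/-- uniqueness of the symbol -/
theorem Sym.unique (h90 : H90 L ⊤ A) {σ : W} (hσ : θ σ = Multiplicative.ofAdd 1)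
    (hθ : L.IsOpen θ.ker) {c c' : LC.H2 ρ L} {b b' : A} (hc : Sym ρ L θ ξ c b)
    (hc' : Sym ρ L θ ξ c' b') {y : A}
    (hy : ∀ v : W, θ v = 1 → v • y = y) (hb : b = b' * ∏ i ∈ Finset.range p, σ ^ i • y) :
    c = c' := by
  rw [← sub_eq_zero, sub_eq_add_neg]
  refine (hc.add K.pow (hc'.neg K.pow)).eq_zero K hρ h90 hσ hθ hy ?_
  rw [hb, mul_comm b', mul_inv_cancel_right]

end Sym

section Functor

/-- Functoriality of symbols. -/
theorem Sym.map {p : ℕ} [hp : Fact p.Prime] {W : Type*} [Group W] {L : Lvl W}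
    {A : Type*} [CommGroup A] [MulDistribMulAction W A] {ξ : A}
    {ρ : Representation (ZMod p) W (ZMod p)} {θ : W →* Multiplicative (ZMod p)}
    {W' : Type*} [Group W'] {L' : Lvl W'} {A' : Type*} [CommGroup A'] [MulDistribMulAction W' A']
    {ξ' : A'} {ρ' : Representation (ZMod p) W' (ZMod p)}
    (m : Mor ρ L ρ' L') (φ : A →* A') (hφ : ∀ (w : W') (x : A), φ (m.f w • x) = w • φ x)
    (hξ : ∀ c : ZMod p, φ (zp ξ c) = zp ξ' (m.φ c))
    {c : LC.H2 ρ L} {b : A} (hc : Sym ρ L θ ξ c b) :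
    Sym ρ' L' (θ.comp m.f) ξ' (m.H2 c) (φ b) := by
  obtain ⟨z, rfl, f, hf, hz⟩ := hc
  refine ⟨m.z2 z, rfl, fun w => φ (f (m.f w)), (hf.pullback m.cont).comp φ, fun x => ?_⟩
  rw [Mor.coe_z2, Mor.c2_apply, ← hξ, hz, map_mul]
  congr 1
  · unfold cyc
    have e2 : ∀ x, ix (θ.comp m.f) x = ix θ (m.f x) := fun x => rfl
    simp only [e2]
    split_ifs
    · rfl
    · rw [map_one]
  · rw [mdiff_apply, mdiff_apply]
    simp only
    rw [map_div, map_mul, hφ, map_mul]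

end Functor

section LinAlg

open Module

/-- The counting argument. -/
theorem finrank_le_of_index {p : ℕ} [hp : Fact p.Prime] {T : Type*} [AddCommGroup T]
    [Module (ZMod p) T] [FiniteDimensional (ZMod p) T] (R : Submodule (ZMod p) T)
    {P : Type*} [CommGroup P] (Θ : P →* Multiplicative T) (hΘ : Function.Surjective Θ)
    (H : Subgroup P) (h0 : H.index ≠ 0) (hH : H.index ≤ p)
    (hR : ∀ b ∈ H, Multiplicative.toAdd (Θ b) ∈ R) :
    finrank (ZMod p) T ≤ finrank (ZMod p) R + 1 := by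
  -- the composite `P → T ⧸ R`
  let f : P →* Multiplicative (T ⧸ R) :=
    (AddMonoidHom.toMultiplicative (R.mkQ.toAddMonoidHom)).comp Θ
  have hf : Function.Surjective f := by
    intro t
    obtain ⟨t', ht'⟩ := R.mkQ_surjective (Multiplicative.toAdd t)
    obtain ⟨b, hb⟩ := hΘ (Multiplicative.ofAdd t')
    refine ⟨b, ?_⟩
    show AddMonoidHom.toMultiplicative (R.mkQ.toAddMonoidHom) (Θ b) = t
    rw [hb]
    exact ht'
  have hHker : H ≤ f.ker := by
    intro b hb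
    rw [MonoidHom.mem_ker]
    show Multiplicative.ofAdd (R.mkQ (Multiplicative.toAdd (Θ b))) = 1
    rw [Submodule.mkQ_apply, (Submodule.Quotient.mk_eq_zero R).mpr (hR b hb), ofAdd_zero]
  have h1 : f.ker.index ≤ p := by
    have h2 := Subgroup.index_dvd_of_le hHker
    exact (Nat.le_of_dvd (Nat.pos_of_ne_zero h0) h2).trans hH
  have h2 : f.ker.index = Nat.card (T ⧸ R) := by
    rw [Subgroup.index_ker, MonoidHom.range_eq_top.mpr hf]
    rw [Subgroup.card_top]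
    rfl
  have h3 : Nat.card (T ⧸ R) = p ^ finrank (ZMod p) (T ⧸ R) := by
    have := Module.natCard_eq_pow_finrank (K := ZMod p) (V := T ⧸ R)
    rwa [Nat.card_zmod] at this
  have h4 : finrank (ZMod p) (T ⧸ R) ≤ 1 := by
    rw [h2, h3] at h1
    by_contra hcon
    push Not at hcon
    have h5 : p ^ 2 ≤ p ^ finrank (ZMod p) (T ⧸ R) := Nat.pow_le_pow_right hp.out.pos hcon
    have h6 : p < p ^ 2 := by
      have := hp.out.one_lt
      nlinarith
    omega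
  have h5 := Submodule.finrank_quotient_add_finrank R
  omega

end LinAlg

end Fermat.Agent.CFT.D3
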