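import Mathlib
import Fermat.Agent.CFT.ChoosePrime

/-!
# Elements with prescribed divisor up to the class number; cyclic averaging of divisors

`F` number field, `σ` an automorphism of prime order `p`, `a ∈ Fˣ` fixed by `σ`, such that
`p ∣ v(a)` for all `σ`-fixed places `v ∉ T`.  Then with `h` the class number of `F` there is
`d₀ ∈ Fˣ` with `v(∏_{j<p} σ^j d₀) = h v(a)` for all `v ∉ T` and `h ∣ v(d₀)` for all `v`.
-/

set_option autoImplicit false
set_option linter.unusedSectionVars false

open NumberField IsDedekindDomain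

namespace Fermat.Agent.CFT.D3

section Act

variable {F : Type*} [Field F] [NumberField F]

/-- the action of field automorphisms on finite places -/
noncomputable def act (s : F ≃+* F) (v : HeightOneSpectrum (𝓞 F)) : HeightOneSpectrum (𝓞 F) :=
  HeightOneSpectrum.equivOfRingEquiv (RingOfIntegers.mapRingEquiv s) v

theorem mem_act {s : F ≃+* F} {v : HeightOneSpectrum (𝓞 F)} {x : 𝓞 F} :
    x ∈ (act s v).asIdeal ↔ (RingOfIntegers.mapRingEquiv s).symm x ∈ v.asIdeal := Iff.rfl

theorem act_one (v : HeightOneSpectrum (𝓞 F)) : act (1 : F ≃+* F) v = v := by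
  apply HeightOneSpectrum.ext
  ext x
  rw [mem_act]
  exact Iff.rfl

theorem act_mul (s t : F ≃+* F) (v : HeightOneSpectrum (𝓞 F)) :
    act (s * t) v = act s (act t v) := by
  apply HeightOneSpectrum.ext
  ext x
  rw [mem_act, mem_act, mem_act]
  exact Iff.rfl

theorem mem_act_pow {s : F ≃+* F} {v : HeightOneSpectrum (𝓞 F)} {x : 𝓞 F} {n : ℕ} :
    RingOfIntegers.mapRingEquiv s x ∈ (act s v).asIdeal ^ n ↔ x ∈ v.asIdeal ^ n := by
  have h1 : (act s v).asIdeal = v.asIdeal.map (RingOfIntegers.mapRingEquiv s) := by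
    rw [← Ideal.comap_symm]
    rfl
  rw [h1, ← Ideal.map_pow, ← Ideal.comap_symm, Ideal.mem_comap]
  rw [RingEquiv.symm_apply_apply]

theorem act_intValuation (s : F ≃+* F) (v : HeightOneSpectrum (𝓞 F)) (x : 𝓞 F) :
    (act s v).intValuation (RingOfIntegers.mapRingEquiv s x) = v.intValuation x := by
  rcases eq_or_ne x 0 with rfl | hx
  · simp
  have key : ∀ n : ℕ, (act s v).intValuation (RingOfIntegers.mapRingEquiv s x) ≤
      WithZero.exp (-(n : ℤ)) ↔ v.intValuation x ≤ WithZero.exp (-(n : ℤ)) := by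
    intro n
    rw [HeightOneSpectrum.intValuation_le_pow_iff_mem,
      HeightOneSpectrum.intValuation_le_pow_iff_mem, mem_act_pow]
  have hx' : RingOfIntegers.mapRingEquiv s x ≠ 0 := by
    rwa [Ne, EmbeddingLike.map_eq_zero_iff]
  have e1 := HeightOneSpectrum.intValuation_eq_exp_neg_multiplicity (act s v) hx'
  have e2 := HeightOneSpectrum.intValuation_eq_exp_neg_multiplicity v hx
  apply le_antisymm
  · rw [e2, key, ← e2]
  · rw [e1, ← key, ← e1]

theorem act_valuation (s : F ≃+* F) (v : HeightOneSpectrum (𝓞 F)) (x : F) :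
    (act s v).valuation F (s x) = v.valuation F x := by
  obtain ⟨a, b, hb, rfl⟩ := IsFractionRing.div_surjective (A := 𝓞 F) x
  rw [map_div₀, map_div₀, map_div₀]
  have h1 : ∀ c : 𝓞 F, s (algebraMap (𝓞 F) F c) =
    algebraMap (𝓞 F) F (RingOfIntegers.mapRingEquiv s c) := fun c => rfl
  rw [h1, h1, HeightOneSpectrum.valuation_of_algebraMap, HeightOneSpectrum.valuation_of_algebraMap,
    HeightOneSpectrum.valuation_of_algebraMap, HeightOneSpectrum.valuation_of_algebraMap,
    act_intValuation, act_intValuation]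

theorem act_valuation' (s : F ≃+* F) (v : HeightOneSpectrum (𝓞 F)) (x : F) :
    v.valuation F (s x) = (act s⁻¹ v).valuation F x := by
  have h := act_valuation s (act s⁻¹ v) x
  rw [← act_mul, mul_inv_cancel, act_one] at h
  exact h

end Act

section Divisor

variable (F : Type*) [Field F] [NumberField F]

/-- a power of each prime is principal -/
theorem exists_generator (v : HeightOneSpectrum (𝓞 F)) :
    ∃ x : 𝓞 F, x ≠ 0 ∧ v.asIdeal ^ classNumber F = Ideal.span {x} := by
  have h1 : v.asIdeal ∈ nonZeroDivisors (Ideal (𝓞 F)) := by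
    rw [mem_nonZeroDivisors_iff_ne_zero]
    exact v.ne_bot
  have h2 : ClassGroup.mk0 (⟨v.asIdeal, h1⟩ ^ classNumber F) = 1 := by
    rw [map_pow, classNumber]
    exact pow_card_eq_one
  rw [ClassGroup.mk0_eq_one_iff] at h2
  obtain ⟨x, hx⟩ := h2
  rw [SubmonoidClass.coe_pow] at hx
  have hx' : v.asIdeal ^ classNumber F = Ideal.span {x} := hx
  refine ⟨x, ?_, hx'⟩
  rintro rfl
  rw [Ideal.span_singleton_eq_bot.mpr rfl] at hx'
  exact pow_ne_zero _ v.ne_bot hx'

variable {F}

theorem valuation_generator {v : HeightOneSpectrum (𝓞 F)} {x : 𝓞 F} {n : ℕ}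
    (h : v.asIdeal ^ n = Ideal.span {x}) :
    v.valuation F (x : F) = WithZero.exp (-(n : ℤ)) := by
  have h0 : (x : F) = algebraMap (𝓞 F) F x := rfl
  rw [h0, HeightOneSpectrum.valuation_of_algebraMap]
  apply le_antisymm
  · rw [HeightOneSpectrum.intValuation_le_pow_iff_mem, h]
    exact Ideal.mem_span_singleton_self x
  · rw [HeightOneSpectrum.exp_le_intValuation_iff_emultiplicity_le, ← h]
    have hp := v.prime
    rw [emultiplicity_pow_self v.ne_bot hp.not_isUnit]

theorem valuation_generator_ne {v w : HeightOneSpectrum (𝓞 F)} {x : 𝓞 F} {n : ℕ}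
    (h : v.asIdeal ^ n = Ideal.span {x}) (hvw : w ≠ v) :
    w.valuation F (x : F) = 1 := by
  have h0 : (x : F) = algebraMap (𝓞 F) F x := rfl
  rw [h0, HeightOneSpectrum.valuation_eq_one_iff_notMem]
  intro hmem
  have h1 : v.asIdeal ^ n ≤ w.asIdeal := by
    rw [h, Ideal.span_singleton_le_iff_mem]
    exact hmem
  have h2 : v.asIdeal ≤ w.asIdeal := w.isPrime.le_of_pow_le h1
  apply hvw
  apply HeightOneSpectrum.ext
  exact (v.isMaximal.eq_of_le w.isPrime.ne_top h2).symm

/-- elements with prescribed divisor (times the class number) -/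
theorem exists_div (n : HeightOneSpectrum (𝓞 F) →₀ ℤ) : ∃ d : Fˣ, ∀ v : HeightOneSpectrum (𝓞 F),
    v.valuation F (d : F) = WithZero.exp ((classNumber F : ℤ) * n v) := by
  induction n using Finsupp.induction_linear with
  | zero => exact ⟨1, fun v => by simp⟩
  | add f g hf hg =>
    obtain ⟨d, hd⟩ := hf
    obtain ⟨d', hd'⟩ := hg
    refine ⟨d * d', fun v => ?_⟩
    rw [Units.val_mul, map_mul, hd, hd', Finsupp.add_apply, mul_add, WithZero.exp_add]
  | single v k =>
    obtain ⟨x, hx0, hx⟩ := exists_generator F v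
    have hx0' : (x : F) ≠ 0 := by simpa using hx0
    refine ⟨(Units.mk0 (x : F) hx0') ^ (-k), fun w => ?_⟩
    rw [Units.val_zpow_eq_zpow_val, Units.val_mk0, map_zpow₀]
    by_cases hw : w = v
    · subst hw
      rw [valuation_generator hx, Finsupp.single_eq_same, ← WithZero.exp_zsmul]
      congr 1
      rw [smul_eq_mul]
      ring
    · rw [valuation_generator_ne hx hw, one_zpow, Finsupp.single_eq_of_ne (Ne.symm ?_), mul_zero,
        WithZero.exp_zero]
      exact fun h => hw h.symm

end Divisor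

section Cyclic

variable {F : Type*} [Field F] [NumberField F]

/-- the order of an element at a place (positive for poles) -/
noncomputable def ordZ (v : HeightOneSpectrum (𝓞 F)) (x : F) : ℤ := WithZero.log (v.valuation F x)

theorem exp_ordZ (v : HeightOneSpectrum (𝓞 F)) {x : F} (hx : x ≠ 0) :
    WithZero.exp (ordZ v x) = v.valuation F x :=
  WithZero.exp_log ((Valuation.ne_zero_iff _).2 hx)

theorem ordZ_act (s : F ≃+* F) (v : HeightOneSpectrum (𝓞 F)) (x : F) :
    ordZ (act s v) (s x) = ordZ v x := by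
  rw [ordZ, act_valuation, ordZ]

theorem finite_ordZ (a : Fˣ) : {v : HeightOneSpectrum (𝓞 F) | ordZ v (a : F) ≠ 0}.Finite := by
  refine (ChoosePrime.finite_valuation_ne_one a).subset fun v hv h => hv ?_
  rw [ordZ, h, WithZero.log_one]

variable {σ : F ≃+* F} {p : ℕ}

theorem act_pow_fixed (v : HeightOneSpectrum (𝓞 F)) (h : act σ v = v) (j : ℕ) :
    act (σ ^ j) v = v := by
  induction j with
  | zero => rw [pow_zero, act_one]
  | succ j ih => rw [pow_succ, act_mul, h, ih]

theorem act_fixed_of_pow (hp : p.Prime) (hσ : σ ^ p = 1) (v : HeightOneSpectrum (𝓞 F)) {j : ℕ}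
    (hj0 : 0 < j) (hjp : j < p) (h : act (σ ^ j) v = v) : act σ v = v := by
  have hc : j.Coprime p := by
    rw [Nat.coprime_comm, hp.coprime_iff_not_dvd]
    exact fun hd => absurd (Nat.le_of_dvd hj0 hd) (by omega)
  obtain ⟨k, hk⟩ : ∃ k : ℕ, (σ ^ j) ^ k = σ := by
    obtain ⟨k, hk⟩ := Nat.exists_mul_mod_eq_one_of_coprime hc hp.one_lt
    refine ⟨k, ?_⟩
    rw [← pow_mul, ← Nat.mod_add_div (j * k) p, hk.2, pow_add, pow_one, pow_mul, hσ, one_pow,
      mul_one]
  have h2 := act_pow_fixed (σ := σ ^ j) v h k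
  rwa [hk] at h2

/-- the orbit relation of `⟨σ⟩` on places -/
def orbSetoid (hp : 0 < p) (hσ : σ ^ p = 1) : Setoid (HeightOneSpectrum (𝓞 F)) where
  r v w := ∃ j : ℕ, act (σ ^ j) v = w
  iseqv :=
    { refl := fun v => ⟨0, by rw [pow_zero, act_one]⟩
      symm := by
        rintro v w ⟨j, rfl⟩
        refine ⟨(p - 1) * j, ?_⟩
        have h1 : (p - 1) * j + j = p * j := by
          obtain ⟨p', rfl⟩ := Nat.exists_eq_succ_of_ne_zero hp.ne'
          simp only [Nat.succ_eq_add_one, Nat.add_sub_cancel]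
          ring
        rw [← act_mul, ← pow_add, h1, pow_mul, hσ, one_pow, act_one]
      trans := by
        rintro u v w ⟨i, rfl⟩ ⟨j, rfl⟩
        exact ⟨j + i, by rw [pow_add, act_mul]⟩ }

/-- **Cyclic averaging.** -/
theorem exists_average (hp : p.Prime) (hσ : σ ^ p = 1) (a : Fˣ) (ha : σ a = a)
    (T : Set (HeightOneSpectrum (𝓞 F)))
    (h : ∀ v, v ∉ T → act σ v = v → (p : ℤ) ∣ ordZ v (a : F)) :
    ∃ n : HeightOneSpectrum (𝓞 F) →₀ ℤ, ∀ v, v ∉ T →
      ∑ j ∈ Finset.range p, n (act (σ ^ j) v) = ordZ v (a : F) := by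
  classical
  let R := orbSetoid hp.pos hσ
  have hinv : ∀ (j : ℕ) (v : HeightOneSpectrum (𝓞 F)),
      ordZ (act (σ ^ j) v) (a : F) = ordZ v (a : F) := by
    intro j v
    have h1 : (σ ^ j) (a : F) = a := by
      induction j with
      | zero => rfl
      | succ j ih =>
        rw [pow_succ]
        show (σ ^ j) (σ a) = a
        rw [ha, ih]
    have h2 := ordZ_act (σ ^ j) v (a : F)
    rwa [h1] at h2
  let rep : HeightOneSpectrum (𝓞 F) → HeightOneSpectrum (𝓞 F) := fun v =>
    Quotient.out (Quotient.mk R v)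
  let f : HeightOneSpectrum (𝓞 F) → ℤ := fun w =>
    if act σ w = w then ordZ w (a : F) / p else if rep w = w then ordZ w (a : F) else 0
  have hf : ∀ w, f w ≠ 0 → ordZ w (a : F) ≠ 0 := by
    intro w hw h0
    apply hw
    simp only [f, h0]
    simp
  let n : HeightOneSpectrum (𝓞 F) →₀ ℤ := Finsupp.ofSupportFinite f
    ((finite_ordZ a).subset fun w hw => hf w hw)
  refine ⟨n, fun v hv => ?_⟩
  have hn : ∀ w, n w = f w := fun w => rfl
  simp only [hn]
  by_cases hfix : act σ v = v
  · have h1 : ∀ j ∈ Finset.range p, f (act (σ ^ j) v) = ordZ v (a : F) / p := by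
      intro j _
      rw [act_pow_fixed v hfix]
      simp only [f, if_pos hfix]
    rw [Finset.sum_congr rfl h1, Finset.sum_const, Finset.card_range, nsmul_eq_mul]
    exact Int.mul_ediv_cancel' (h v hv hfix)
  · have hnf : ∀ j : ℕ, act σ (act (σ ^ j) v) ≠ act (σ ^ j) v := by
      intro j hj
      apply hfix
      rw [← act_mul, ← pow_succ', pow_succ, act_mul] at hj
      -- `σ^j (σ v) = σ^j v`
      have h1 := congrArg (act (σ ^ j)⁻¹) hj
      rw [← act_mul, ← act_mul, inv_mul_cancel, one_mul, ← act_mul, inv_mul_cancel, act_one] at h1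
      exact h1
    -- the representative
    have hrep : ∀ j : ℕ, rep (act (σ ^ j) v) = rep v := by
      intro j
      simp only [rep]
      congr 1
      exact Quotient.sound (s := R) (R.symm ⟨j, rfl⟩)
    obtain ⟨i, hi⟩ : ∃ j : ℕ, act (σ ^ j) v = rep v := by
      have h1 : R (rep v) v := Quotient.exact (s := R) (Quotient.out_eq _)
      exact R.symm h1
    have hi' : act (σ ^ (i % p)) v = rep v := by
      rw [← hi]
      conv_rhs => rw [← Nat.mod_add_div i p, pow_add, pow_mul, hσ, one_pow, mul_one]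
    rw [Finset.sum_eq_single (i % p)]
    · simp only [f]
      rw [if_neg (hnf _), if_pos, hinv]
      rw [hrep, hi']
    · intro j hj hji
      simp only [f]
      rw [if_neg (hnf _), if_neg]
      intro hcon
      rw [hrep, ← hi'] at hcon
      -- two different exponents with the same image
      have key : ∀ s t : ℕ, s < t → t < p → act (σ ^ s) v = act (σ ^ t) v → False := by
        intro s t hst htp hcon
        have h1 : act (σ ^ (t - s)) (act (σ ^ s) v) = act (σ ^ s) v := by
          rw [← act_mul, ← pow_add, Nat.sub_add_cancel hst.le]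
          exact hcon.symm
        exact hnf s (act_fixed_of_pow hp hσ _ (Nat.sub_pos_of_lt hst) (by omega) h1)
      rcases lt_or_gt_of_ne hji with hlt | hlt
      · exact key j (i % p) hlt (Nat.mod_lt _ hp.pos) hcon.symm
      · exact key (i % p) j hlt (Finset.mem_range.mp hj) hcon
    · intro hni
      exact absurd (Finset.mem_range.mpr (Nat.mod_lt _ hp.pos)) hni

/-- **The class element.** -/
theorem exists_classEl (hp : p.Prime) (hσ : σ ^ p = 1) (a : Fˣ) (ha : σ a = a)
    (T : Set (HeightOneSpectrum (𝓞 F)))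
    (h : ∀ v, v ∉ T → act σ v = v → (p : ℤ) ∣ ordZ v (a : F)) :
    ∃ (n : HeightOneSpectrum (𝓞 F) →₀ ℤ) (d : Fˣ),
      (∀ v : HeightOneSpectrum (𝓞 F),
        v.valuation F (d : F) = WithZero.exp ((classNumber F : ℤ) * n v)) ∧
      ∀ v, v ∉ T → v.valuation F (∏ j ∈ Finset.range p, (σ ^ j) (d : F)) =
        v.valuation F (a : F) ^ classNumber F := by
  have hσ' : σ⁻¹ ^ p = 1 := by rw [inv_pow, hσ, inv_one]
  have ha' : σ⁻¹ (a : F) = a := by
    conv_lhs => rw [← ha]
    exact σ.symm_apply_apply (a : F)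
  have h' : ∀ v, v ∉ T → act σ⁻¹ v = v → (p : ℤ) ∣ ordZ v (a : F) := by
    intro v hv hfix
    refine h v hv ?_
    conv_lhs => rw [← hfix]
    rw [← act_mul, mul_inv_cancel, act_one]
  obtain ⟨n, hn⟩ := exists_average hp hσ' a ha' T h'
  obtain ⟨d, hd⟩ := exists_div n
  refine ⟨n, d, hd, fun v hv => ?_⟩
  rw [map_prod]
  have h1 : ∀ j ∈ Finset.range p, v.valuation F ((σ ^ j) (d : F)) =
      WithZero.exp ((classNumber F : ℤ) * n (act (σ⁻¹ ^ j) v)) := by
    intro j _
    rw [act_valuation', hd, inv_pow]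
  rw [Finset.prod_congr rfl h1]
  have h2 : ∀ s : Finset ℕ, ∏ j ∈ s, WithZero.exp ((classNumber F : ℤ) * n (act (σ⁻¹ ^ j) v)) =
      WithZero.exp (∑ j ∈ s, (classNumber F : ℤ) * n (act (σ⁻¹ ^ j) v)) := by
    intro s
    classical
    induction s using Finset.induction_on with
    | empty => simp
    | insert j s hj ih => rw [Finset.prod_insert hj, Finset.sum_insert hj, ih, WithZero.exp_add]
  rw [h2, ← Finset.mul_sum, hn v hv, ← exp_ordZ v a.ne_zero, ← WithZero.exp_nsmul, nsmul_eq_mul]

end Cyclic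

end Fermat.Agent.CFT.D3
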