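import Mathlib
import Fermat.Agent.CFT.LC.Levels
import Fermat.Agent.CFT.D3.Core
import Fermat.Agent.TWP.Place

/-!
# Smoothness of elements of `ℚ̄ˣ` for the level structure `unram S`

* `UnrEl S x` : `x ∈ ℚ̄` is fixed by the inertia groups at all places above primes `q ∉ S`;
* `smoothEl_unram_iff`;
* `inertia_fix_of_pow` : for `τ` in the inertia group of `A | q`, `q ≠ p`, `y` an `A`-unit with
  `τ (y^(p^e)) = y^(p^e)`: `τ y = y`;
* `EE S` : the subgroup of elements of `ℚ̄ˣ` which are units outside `S`.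
-/

set_option autoImplicit false

open Pointwise

namespace Fermat.Agent.CFT.D3

open LC

local notation "Qb" => AlgebraicClosure ℚ
local notation "GQ" => (AlgebraicClosure ℚ ≃ₐ[ℚ] AlgebraicClosure ℚ)

/-- membership in the fixing subgroup of an `adjoin` can be tested on generators -/
theorem mem_fixingSubgroup_adjoin_iff {K E : Type*} [Field K] [Field E] [Algebra K E]
    (s : Set E) (g : E ≃ₐ[K] E) :
    g ∈ (IntermediateField.adjoin K s).fixingSubgroup ↔ ∀ x ∈ s, g x = x := by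
  rw [IntermediateField.mem_fixingSubgroup_iff]
  constructor
  · intro h x hx
    exact h x (IntermediateField.subset_adjoin K s hx)
  · intro h x hx
    have hle : IntermediateField.adjoin K s ≤
        IntermediateField.fixedField (Subgroup.zpowers g) := by
      rw [IntermediateField.adjoin_le_iff]
      intro y hy
      rw [SetLike.mem_coe, IntermediateField.mem_fixedField_iff]
      intro f hf
      obtain ⟨n, rfl⟩ := Subgroup.mem_zpowers_iff.1 hf
      have hst : g ∈ MulAction.stabilizer (E ≃ₐ[K] E) y := h y hy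
      exact (MulAction.stabilizer (E ≃ₐ[K] E) y).zpow_mem hst n
    have := hle hx
    rw [IntermediateField.mem_fixedField_iff] at this
    exact this g (Subgroup.mem_zpowers g)

variable {S : Finset Nat.Primes}

/-- An element of `ℚ̄` is *unramified outside `S`* if it is fixed by all inertia groups above
primes `q ∉ S`. -/
def UnrEl (S : Finset Nat.Primes) (x : Qb) : Prop :=
  ∀ q : Nat.Primes, q ∉ S → ∀ A : ValuationSubring Qb, A.LiesOverPrime (q : ℕ) →
    ∀ τ ∈ A.inertiaSubgroupIn ℚ, τ x = x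

theorem liesOverPrime_smul {A : ValuationSubring Qb} {q : ℕ} (h : A.LiesOverPrime q) (g : GQ) :
    (g • A).LiesOverPrime q := by
  unfold ValuationSubring.LiesOverPrime at h ⊢
  rw [← TWP.Place.apply_mem_nonunits_smul A g] at h
  simpa using h

theorem UnrEl.apply {x : Qb} (h : UnrEl S x) (g : GQ) : UnrEl S (g x) := by
  intro q hq A hA τ hτ
  have h1 := TWP.Place.mem_inertia_conj g⁻¹ hτ
  have h2 := h q hq (g⁻¹ • A) (liesOverPrime_smul hA g⁻¹) _ h1
  rw [inv_inv] at h2
  have h3 : g ((g⁻¹ * τ * g) x) = g x := by rw [h2]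
  have h4 : g ((g⁻¹ * τ * g) x) = (g * (g⁻¹ * τ * g)) x := rfl
  have h5 : g * (g⁻¹ * τ * g) = τ * g := by group
  rw [h4, h5] at h3
  exact h3

theorem unrEl_of_mem {F : IntermediateField ℚ Qb} (hF : F.IsUnramifiedOutside S) {x : Qb}
    (hx : x ∈ F) : UnrEl S x := by
  intro q hq A hA τ hτ
  exact (IntermediateField.mem_fixingSubgroup_iff _ _).mp (hF.2 q hq A hA hτ) x hx

theorem finiteDimensional_adjoin {s : Set Qb} (hs : s.Finite) :
    FiniteDimensional ℚ (IntermediateField.adjoin ℚ s) := by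
  have : Finite s := hs
  exact IntermediateField.finiteDimensional_adjoin fun x _ => Algebra.IsIntegral.isIntegral x

theorem isUnramifiedOutside_adjoin {s : Set Qb} (hs : s.Finite) (h : ∀ x ∈ s, UnrEl S x) :
    (IntermediateField.adjoin ℚ s).IsUnramifiedOutside S := by
  refine ⟨finiteDimensional_adjoin hs, fun q hq A hA τ hτ => ?_⟩
  rw [mem_fixingSubgroup_adjoin_iff]
  exact fun x hx => h x hx q hq A hA τ hτ

/-- Smoothness in terms of inertia groups. -/
theorem smoothEl_unram_iff {x : Qbˣ} : SmoothEl (unram S) x ↔ UnrEl S (x : Qb) := by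
  constructor
  · rintro ⟨_, ⟨F, h1, _, rfl⟩, h⟩ q hq A hA τ hτ
    have h2 := h τ (h1.2 q hq A hA hτ)
    exact congrArg Units.val h2
  · intro h
    refine ⟨_, ⟨_, isUnramifiedOutside_ncl (isUnramifiedOutside_adjoin (Set.finite_singleton _)
      (by rintro _ rfl; exact h)), isNorm_ncl _, rfl⟩, fun g hg => ?_⟩
    rw [IntermediateField.mem_fixingSubgroup_iff] at hg
    refine Units.ext (hg _ (le_ncl _ (IntermediateField.subset_adjoin ℚ _ rfl)))

theorem smoothEl_krull (x : Qbˣ) : SmoothEl (krull ℚ Qb) x := by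
  refine ⟨_, ⟨_, IsFin.ncl (F := IntermediateField.adjoin ℚ {(x : Qb)})
    (finiteDimensional_adjoin (Set.finite_singleton _)), isNorm_ncl _, rfl⟩, fun g hg => ?_⟩
  rw [IntermediateField.mem_fixingSubgroup_iff] at hg
  refine Units.ext (hg _ (le_ncl _ (IntermediateField.subset_adjoin ℚ _ rfl)))

section Local

variable {A : ValuationSubring Qb}

theorem natCast_nonunits_contra {p q : ℕ} (hpq : p.Coprime q) (hp : (p : Qb) ∈ A.nonunits)
    (hq : (q : Qb) ∈ A.nonunits) : False := by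
  have h1 : (p : A) ∈ IsLocalRing.maximalIdeal A := by
    rw [← ValuationSubring.coe_mem_nonunits_iff]
    simpa using hp
  have h2 : (q : A) ∈ IsLocalRing.maximalIdeal A := by
    rw [← ValuationSubring.coe_mem_nonunits_iff]
    simpa using hq
  have h3 : IsCoprime (p : ℤ) (q : ℤ) := Nat.isCoprime_iff_coprime.mpr hpq
  obtain ⟨a, b, hab⟩ := h3
  have h4 : (a : A) * p + b * q = 1 := by
    have := congrArg (Int.cast : ℤ → A) hab
    push_cast at this
    exact this
  have h5 : (1 : A) ∈ IsLocalRing.maximalIdeal A := by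
    rw [← h4]
    exact Ideal.add_mem _ (Ideal.mul_mem_left _ _ h1) (Ideal.mul_mem_left _ _ h2)
  exact (Ideal.ne_top_iff_one _).mp (IsLocalRing.maximalIdeal.isMaximal A).ne_top h5

/-- a `p`-power root of unity congruent to `1` modulo the maximal ideal at `A | q ≠ p` is `1`. -/
theorem eq_one_of_pow_eq_one {p q : ℕ} (hp : p.Prime) (hpq : p.Coprime q)
    (hA : A.LiesOverPrime q) {ζ : Qb} {e : ℕ} (hζ : ζ ^ p ^ e = 1) (h1 : ζ - 1 ∈ A.nonunits) :
    ζ = 1 := by
  by_contra hne
  -- find the largest `j` with `ζ^(p^j) ≠ 1`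
  obtain ⟨j, hj1, hj2⟩ : ∃ j, ζ ^ p ^ j ≠ 1 ∧ ζ ^ p ^ (j + 1) = 1 := by
    by_contra hcon
    push Not at hcon
    have : ∀ j, ζ ^ p ^ j ≠ 1 := by
      intro j
      induction j with
      | zero => simpa using hne
      | succ j ih => exact hcon j ih
    exact this e hζ
  set ξ := ζ ^ p ^ j with hξ
  have hξp : ξ ^ p = 1 := by rw [hξ, ← pow_mul, ← pow_succ]; exact hj2
  have hζA : ζ ∈ A := by
    rw [← ValuationSubring.valuation_le_one_iff]
    by_contra hcon
    rw [not_le] at hcon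
    have h2 : A.valuation (ζ ^ p ^ e) = 1 := by rw [hζ, map_one]
    rw [map_pow] at h2
    have h3 := one_lt_pow₀ hcon (pow_ne_zero e hp.ne_zero)
    rw [h2] at h3
    exact lt_irrefl _ h3
  have hξA : ξ ∈ A := by
    rw [hξ]
    exact A.toSubring.pow_mem hζA _
  have h2 : (⟨ζ, hζA⟩ - 1 : A) ∈ IsLocalRing.maximalIdeal A := by
    rw [← ValuationSubring.coe_mem_nonunits_iff]
    simpa using h1
  have h3 : (⟨ξ, hξA⟩ - 1 : A) ∈ IsLocalRing.maximalIdeal A := by
    have h4 : (⟨ξ, hξA⟩ : A) = ⟨ζ, hζA⟩ ^ p ^ j := Subtype.ext rfl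
    rw [h4]
    have h5 : (⟨ζ, hζA⟩ - 1 : A) ∣ ⟨ζ, hζA⟩ ^ p ^ j - 1 := by
      simpa using sub_dvd_pow_sub_pow (⟨ζ, hζA⟩ : A) 1 (p ^ j)
    exact Ideal.mem_of_dvd _ h5 h2
  have h4 : ∀ i : ℕ, (⟨ξ, hξA⟩ ^ i - 1 : A) ∈ IsLocalRing.maximalIdeal A := by
    intro i
    have h5 : (⟨ξ, hξA⟩ - 1 : A) ∣ ⟨ξ, hξA⟩ ^ i - 1 := by
      simpa using sub_dvd_pow_sub_pow (⟨ξ, hξA⟩ : A) 1 i
    exact Ideal.mem_of_dvd _ h5 h3
  have h5 : ∑ i ∈ Finset.range p, (⟨ξ, hξA⟩ : A) ^ i = 0 := by
    have h6 : (∑ i ∈ Finset.range p, (⟨ξ, hξA⟩ : A) ^ i) * (⟨ξ, hξA⟩ - 1) = 0 := by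
      rw [geom_sum_mul]
      apply Subtype.ext
      simp [hξp]
    rcases mul_eq_zero.mp h6 with h7 | h7
    · exact h7
    · exfalso
      apply hj1
      have := congrArg Subtype.val (sub_eq_zero.mp h7)
      exact this
  have h6 : (p : A) ∈ IsLocalRing.maximalIdeal A := by
    have h7 : (p : A) = - ∑ i ∈ Finset.range p, ((⟨ξ, hξA⟩ : A) ^ i - 1) := by
      rw [Finset.sum_sub_distrib, h5]
      simp
    rw [h7]
    exact neg_mem (Ideal.sum_mem _ fun i _ => h4 i)
  refine natCast_nonunits_contra (A := A) hpq ?_ hA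
  rw [← ValuationSubring.coe_mem_nonunits_iff] at h6
  simpa using h6

theorem inertia_fix_of_pow {p q : ℕ} (hp : p.Prime) (hpq : p.Coprime q)
    (hA : A.LiesOverPrime q) {τ : GQ} (hτ : τ ∈ A.inertiaSubgroupIn ℚ) {y : Qb}
    (hy : A.valuation y = 1) {e : ℕ} (h : τ (y ^ p ^ e) = y ^ p ^ e) : τ y = y := by
  have hy0 : y ≠ 0 := by
    rintro rfl
    simp at hy
  have hyA : y ∈ A := by
    rw [← ValuationSubring.valuation_le_one_iff, hy]
  have h1 := ((TWP.Place.mem_inertiaSubgroupIn_iff A τ).mp hτ).2 y hyA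
  have h2 : τ y / y - 1 ∈ A.nonunits := by
    have h3 : τ y / y - 1 = (τ y - y) / y := by
      field_simp
    rw [h3, ValuationSubring.mem_nonunits_iff, map_div₀, hy, div_one,
      ← ValuationSubring.mem_nonunits_iff]
    exact h1
  have h3 : (τ y / y) ^ p ^ e = 1 := by
    rw [div_pow, ← map_pow, h, div_self (pow_ne_zero _ hy0)]
  have h4 := eq_one_of_pow_eq_one hp hpq hA h3 h2
  exact (div_eq_one_iff_eq hy0).mp h4

theorem valuation_eq_one_of_pow {y : Qb} {n : ℕ} (hn : n ≠ 0) (h : A.valuation (y ^ n) = 1) :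
    A.valuation y = 1 := by
  rw [map_pow] at h
  exact (pow_eq_one_iff_of_nonneg zero_le hn).mp h

end Local

section EE

/-- Elements of `ℚ̄ˣ` which are units at all places above primes outside `S`. -/
def EE (S : Finset Nat.Primes) : Subgroup Qbˣ where
  carrier := {x | ∀ q : Nat.Primes, q ∉ S → ∀ A : ValuationSubring Qb,
    A.LiesOverPrime (q : ℕ) → A.valuation (x : Qb) = 1}
  mul_mem' := by
    intro x y hx hy q hq A hA
    rw [Units.val_mul, map_mul, hx q hq A hA, hy q hq A hA, one_mul]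
  one_mem' := by
    intro q hq A hA
    simp
  inv_mem' := by
    intro x hx q hq A hA
    rw [Units.val_inv_eq_inv_val, map_inv₀, hx q hq A hA, inv_one]

theorem mem_EE {x : Qbˣ} : x ∈ EE S ↔ ∀ q : Nat.Primes, q ∉ S → ∀ A : ValuationSubring Qb,
    A.LiesOverPrime (q : ℕ) → A.valuation (x : Qb) = 1 := Iff.rfl

theorem valuation_apply_eq_one_iff (A : ValuationSubring Qb) (g : GQ) (x : Qb) :
    A.valuation (g x) = 1 ↔ (g⁻¹ • A).valuation x = 1 := by
  have key : ∀ (B : ValuationSubring Qb) (y : Qb), B.valuation y = 1 ↔ y ∈ B ∧ y⁻¹ ∈ B ∧ y ≠ 0 := by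
    intro B y
    rw [← ValuationSubring.valuation_le_one_iff, ← ValuationSubring.valuation_le_one_iff, map_inv₀]
    constructor
    · intro h
      refine ⟨h.le, by rw [h, inv_one], ?_⟩
      rintro rfl
      simp at h
    · rintro ⟨h1, h2, h3⟩
      refine le_antisymm h1 ?_
      rwa [inv_le_one₀ (zero_lt_iff.2 ((Valuation.ne_zero_iff _).2 h3))] at h2
  rw [key, key, TWP.Place.mem_smul_iff, TWP.Place.mem_smul_iff, inv_inv, map_inv₀]
  simp

theorem smul_mem_EE (g : GQ) {x : Qbˣ} (hx : x ∈ EE S) : g • x ∈ EE S := by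
  intro q hq A hA
  show A.valuation (g (x : Qb)) = 1
  rw [valuation_apply_eq_one_iff]
  exact hx q hq _ (liesOverPrime_smul hA g⁻¹)

theorem mem_EE_of_pow {x : Qbˣ} {n : ℕ} (hn : n ≠ 0) (h : x ^ n ∈ EE S) : x ∈ EE S := by
  intro q hq A hA
  have := h q hq A hA
  rw [Units.val_pow_eq_pow_val] at this
  exact valuation_eq_one_of_pow hn this

/-- `S`-units have `p`-th roots in `ℚ_S`. -/
theorem exists_root_EE {p : ℕ} (hp : p.Prime) (hpS : (⟨p, hp⟩ : Nat.Primes) ∈ S) {x : Qbˣ}
    (hx : x ∈ EE S) (hs : SmoothEl (unram S) x) :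
    ∃ y : Qbˣ, SmoothEl (unram S) y ∧ y ^ p = x := by
  obtain ⟨y, hy⟩ := IsAlgClosed.exists_pow_nat_eq (x : Qb) hp.pos
  have hy0 : y ≠ 0 := by
    rintro rfl
    rw [zero_pow hp.ne_zero] at hy
    exact x.ne_zero hy.symm
  refine ⟨Units.mk0 y hy0, ?_, Units.ext (by simpa using hy)⟩
  rw [smoothEl_unram_iff] at hs ⊢
  intro q hq A hA τ hτ
  have hpq : p.Coprime q := by
    rw [Nat.coprime_primes hp q.2]
    rintro h
    apply hq
    have : q = ⟨p, hp⟩ := Subtype.ext h.symm
    rwa [this]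
  refine inertia_fix_of_pow (e := 1) hp hpq hA hτ ?_ ?_
  · refine valuation_eq_one_of_pow hp.ne_zero ?_
    simp only [Units.val_mk0]
    rw [hy]
    exact hx q hq A hA
  · simp only [pow_one, Units.val_mk0]
    rw [hy]
    exact hs q hq A hA τ hτ

end EE

end Fermat.Agent.CFT.D3
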