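import Mathlib
import Fermat.Agent.CFT.D3.Smooth
import Fermat.Agent.CFT.D3.ClassEl
import Fermat.Agent.CFT.W.Global

/-!
# Descent of cyclic classes to `S`-level-constant `μ_p`-valued cocycles
-/

set_option autoImplicit false

open Pointwise NumberField IsDedekindDomain

namespace Fermat.Agent.CFT.D3

open LC

local notation "Qb" => AlgebraicClosure ℚ
local notation "GQ" => (AlgebraicClosure ℚ ≃ₐ[ℚ] AlgebraicClosure ℚ)

section Restrict

variable {G : Type*} [Group G] {A : Type*} [CommGroup A] [MulDistribMulAction G A]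

theorem SmoothEl.restrict {L : Lvl G} {x : A} (h : SmoothEl L x) (U : Subgroup G) :
    SmoothEl (L.restrict U) x := by
  obtain ⟨N, hN, h1⟩ := h
  exact ⟨_, Lvl.comap_mem_levels _ hN, fun s hs => h1 s hs⟩

theorem SmoothEl.of_restrict {L : Lvl G} {x : A} {U : Subgroup G} (hU : L.IsOpen U)
    (h : SmoothEl (L.restrict U) x) : SmoothEl L x := by
  obtain ⟨_, ⟨N, hN, rfl⟩, h1⟩ := h
  obtain ⟨N', hN', h2⟩ := hU
  obtain ⟨W, hW, h3, h4⟩ := L.directed N hN N' hN'
  exact ⟨W, hW, fun s hs => h1 ⟨s, h2 (h4 hs)⟩ (h3 hs)⟩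

end Restrict

section Field

variable {F : IntermediateField ℚ Qb}

/-- the subfield `F` is stable under automorphisms if its fixing subgroup is normal -/
theorem apply_mem_of_normal (hF : F.fixingSubgroup.Normal) (g : GQ) {x : Qb} (hx : x ∈ F) :
    g x ∈ F := by
  have h1 := InfiniteGalois.fixedField_fixingSubgroup F
  rw [← h1, IntermediateField.mem_fixedField_iff]
  intro f hf
  have h2 := hF.conj_mem f hf g⁻¹
  rw [inv_inv, IntermediateField.mem_fixingSubgroup_iff] at h2
  have h3 := congrArg g (h2 x hx)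
  have h4 : g ((g⁻¹ * f * g) x) = (g * (g⁻¹ * f * g)) x := rfl
  have h5 : g * (g⁻¹ * f * g) = f * g := by group
  rw [h4, h5] at h3
  exact h3

/-- restriction of an automorphism to a normal subfield -/
noncomputable def resF (hF : F.fixingSubgroup.Normal) (g : GQ) : F ≃+* F where
  toFun x := ⟨g x, apply_mem_of_normal hF g x.2⟩
  invFun x := ⟨g⁻¹ x, apply_mem_of_normal hF g⁻¹ x.2⟩
  left_inv x := Subtype.ext (g.symm_apply_apply (x : Qb))
  right_inv x := Subtype.ext (g.apply_symm_apply (x : Qb))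
  map_mul' x y := Subtype.ext (map_mul g (x : Qb) y)
  map_add' x y := Subtype.ext (map_add g (x : Qb) y)

@[simp] theorem coe_resF (hF : F.fixingSubgroup.Normal) (g : GQ) (x : F) :
    ((resF hF g x : F) : Qb) = g x := rfl

theorem resF_mul (hF : F.fixingSubgroup.Normal) (g h : GQ) :
    resF hF (g * h) = resF hF g * resF hF h := by
  ext x
  rfl

theorem resF_pow (hF : F.fixingSubgroup.Normal) (g : GQ) (n : ℕ) :
    resF hF (g ^ n) = resF hF g ^ n := by
  induction n with
  | zero => ext x; rfl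
  | succ n ih => rw [pow_succ, resF_mul, ih, pow_succ]

theorem resF_eq_one_iff (hF : F.fixingSubgroup.Normal) (g : GQ) :
    resF hF g = 1 ↔ g ∈ F.fixingSubgroup := by
  rw [IntermediateField.mem_fixingSubgroup_iff]
  constructor
  · intro h x hx
    exact congrArg Subtype.val (RingEquiv.congr_fun h ⟨x, hx⟩)
  · intro h
    ext x
    exact h x x.2

end Field

/-- finite places of `F` above the primes of `S` -/
def placesAbove (S : Finset Nat.Primes) (F : Type*) [Field F] [NumberField F] :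
    Set (HeightOneSpectrum (𝓞 F)) := {v | ∃ q ∈ S, ((q : ℕ) : 𝓞 F) ∈ v.asIdeal}

section Main

variable {S : Finset Nat.Primes} {p : ℕ}

theorem natCast_coprime_contra {R : Type*} [CommRing R] {I : Ideal R} (hI : I ≠ ⊤) {m n : ℕ}
    (h : m.Coprime n) (hm : (m : R) ∈ I) (hn : (n : R) ∈ I) : False := by
  have h3 : IsCoprime (m : ℤ) (n : ℤ) := Nat.isCoprime_iff_coprime.mpr h
  obtain ⟨a, b, hab⟩ := h3
  have h4 : (a : R) * m + b * n = 1 := by
    have := congrArg (Int.cast : ℤ → R) hab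
    push_cast at this
    exact this
  apply hI
  rw [Ideal.eq_top_iff_one, ← h4]
  exact Ideal.add_mem _ (Ideal.mul_mem_left _ _ hm) (Ideal.mul_mem_left _ _ hn)

theorem place_notMem_placesAbove (F : IntermediateField ℚ Qb) [FiniteDimensional ℚ F]
    {q : Nat.Primes} (hq : q ∉ S) {A : ValuationSubring Qb} (hA : A.LiesOverPrime (q : ℕ)) :
    W.place A (algebraMap F Qb) q.2.ne_zero hA ∉ placesAbove S F := by
  rintro ⟨q', hq', h⟩
  have h1 := W.natCast_mem_centerIdeal (algebraMap F Qb) hA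
  have hne : (q : ℕ) ≠ q' := by
    intro he
    apply hq
    have : q = q' := Subtype.ext he
    rwa [this]
  exact natCast_coprime_contra (W.place A (algebraMap F Qb) q.2.ne_zero hA).isPrime.ne_top
    ((Nat.coprime_primes q.2 q'.2).mpr hne) h1 h

/-- **Descent.** Let `F/K` be cyclic of degree `p` inside `ℚ_S`, `U = G_K`, `χ : U → ℤ/p` the
character with kernel `G_F`, `a ∈ Kˣ` such that `p ∣ v(a)` for each place `v ∤ S` of `F` fixed by
`Gal(F/K)`.  Then for some `m` prime to `p`, the cyclic class of `a^m` is represented by an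
`S`-level-constant `μ_p`-valued cocycle. -/
theorem exists_descent (hp : p.Prime) (hpS : (⟨p, hp⟩ : Nat.Primes) ∈ S) [NeZero p]
    {U : Subgroup GQ} (hU : (unram S).IsOpen U)
    (F : IntermediateField ℚ Qb) [FiniteDimensional ℚ F] (hF : F.IsUnramifiedOutside S)
    (hFn : F.fixingSubgroup.Normal)
    (χ : U →* Multiplicative (ZMod p)) (hχ : ∀ u : U, χ u = 1 ↔ (u : GQ) ∈ F.fixingSubgroup)
    {σ : U} (hσ : χ σ = Multiplicative.ofAdd 1)
    (a : Fˣ) (haU : ∀ u : U, (u : GQ) (a : F) = ((a : F) : Qb))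
    (h : ∀ v : HeightOneSpectrum (𝓞 F), v ∉ placesAbove S F → act (resF hFn σ) v = v →
      (p : ℤ) ∣ ordZ v (a : F)) :
    ∃ m : ℕ, m.Coprime p ∧ ∃ b : U → Qbˣ, IsLC₁ ((unram S).restrict U) b ∧
      IsLC₂ ((unram S).restrict U) (cyc χ (Units.map (algebraMap F Qb).toMonoidHom a ^ m) / mdiff b) ∧
      (cyc χ (Units.map (algebraMap F Qb).toMonoidHom a ^ m) / mdiff b) ^ p = 1 := by
  set α : Qbˣ := Units.map (algebraMap F Qb).toMonoidHom a with hα
  have hαc : (α : Qb) = ((a : F) : Qb) := rfl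
  -- σ acts on `F` with `σ^p = 1`
  have hσp : resF hFn (σ : GQ) ^ p = 1 := by
    rw [← resF_pow, resF_eq_one_iff]
    have h1 : χ (σ ^ p) = 1 := by
      rw [map_pow, hσ, ← ofAdd_nsmul, nsmul_one, ZMod.natCast_self, ofAdd_zero]
    have h2 := (hχ _).mp h1
    rwa [Subgroup.coe_pow] at h2
  have haσ : resF hFn (σ : GQ) (a : F) = a := Subtype.ext (haU σ)
  obtain ⟨n, d₀, hd₀, hN⟩ := exists_classEl hp hσp a haσ (placesAbove S F) h
  -- the class number
  have hcl : classNumber F ≠ 0 := classNumber_ne_zero F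
  obtain ⟨e, m, hm, hem⟩ := Nat.exists_eq_pow_mul_and_not_dvd hcl p hp.ne_one
  have hmp : m.Coprime p := by
    rw [Nat.coprime_comm, hp.coprime_iff_not_dvd]
    exact hm
  have hpe : p ^ e ≠ 0 := pow_ne_zero _ hp.ne_zero
  set δ₀ : Qbˣ := Units.map (algebraMap F Qb).toMonoidHom d₀ with hδ₀
  have hδ₀c : (δ₀ : Qb) = ((d₀ : F) : Qb) := rfl
  obtain ⟨y, hy⟩ := IsAlgClosed.exists_pow_nat_eq (δ₀ : Qb) (Nat.pos_of_ne_zero hpe)
  have hy0 : y ≠ 0 := by
    rintro rfl
    rw [zero_pow hpe] at hy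
    exact δ₀.ne_zero hy.symm
  set d : Qbˣ := Units.mk0 y hy0 with hd
  have hdpow : d ^ p ^ e = δ₀ := Units.ext (by rw [Units.val_pow_eq_pow_val]; exact hy)
  have hdc : (d : Qb) = y := rfl
  -- smoothness of `d`
  have hds : SmoothEl (unram S) d := by
    rw [smoothEl_unram_iff]
    intro q hq A hA τ hτ
    have hpq : p.Coprime q := by
      rw [Nat.coprime_primes hp q.2]
      rintro he
      apply hq
      have : q = ⟨p, hp⟩ := Subtype.ext he.symm
      rwa [this]
    set v := W.place A (algebraMap F Qb) q.2.ne_zero hA with hv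
    obtain ⟨u, hu⟩ := v.valuation_surjective F (WithZero.exp ((m : ℤ) * n v))
    have hu0 : u ≠ 0 := by
      rintro rfl
      rw [map_zero] at hu
      exact WithZero.exp_ne_zero hu.symm
    have hw : v.valuation F ((d₀ : F) / u ^ p ^ e) = 1 := by
      rw [map_div₀, map_pow, hu, hd₀ v, hem, ← WithZero.exp_nsmul, nsmul_eq_mul]
      rw [div_eq_one_iff_eq WithZero.exp_ne_zero]
      congr 1
      push_cast
      ring
    have hu0' : (u : Qb) ≠ 0 := by simpa using hu0
    have hyu : (y / (u : Qb)) ^ p ^ e = (((d₀ : F) / u ^ p ^ e : F) : Qb) := by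
      rw [div_pow, hy, hδ₀c]
      push_cast
      rfl
    have hAy : A.valuation (y / (u : Qb)) = 1 := by
      refine valuation_eq_one_of_pow hpe ?_
      rw [hyu]
      exact (W.valuation_eq_one_iff A (algebraMap F Qb) q.2.ne_zero hA).mp hw
    have hfix : τ (y / (u : Qb)) = y / (u : Qb) := by
      refine inertia_fix_of_pow hp hpq hA hτ hAy (e := e) ?_
      rw [hyu]
      exact unrEl_of_mem hF (Subtype.mem _) q hq A hA τ hτ
    have hfixu : τ (u : Qb) = u := unrEl_of_mem hF u.2 q hq A hA τ hτ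
    rw [map_div₀, hfixu] at hfix
    rw [hdc]
    field_simp at hfix
    exact hfix
  refine ⟨m, hmp, ?_⟩
  suffices H : ∃ b : U → Qbˣ, IsLC₁ ((unram S).restrict U) b ∧
      (∀ g, SmoothEl ((unram S).restrict U) (b g)) ∧
      IsLC₂ ((unram S).restrict U) (cyc χ (α ^ m) / mdiff b) ∧
      (cyc χ (α ^ m) / mdiff b) ^ p = 1 by
    obtain ⟨b, hb1, -, hb3, hb4⟩ := H
    exact ⟨b, hb1, hb3, hb4⟩
  refine exists_cocycle (G := U) (A := Qbˣ) (χ := χ) (σ := σ) (E := EE S)
    (d := d) (a := α ^ m) ((unram S).restrict U) ?_ hσ (fun g x hx => smul_mem_EE (g : GQ) hx)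
    ?_ (hds.restrict U) ?_ ?_ ?_
  · -- openness of the kernel
    have hFo : (unram S).IsOpen F.fixingSubgroup := isOpen_unram_iff.mpr ⟨F, hF, le_rfl⟩
    obtain ⟨N, hN', hN''⟩ := hFo
    exact ⟨_, Lvl.comap_mem_levels _ hN', fun u hu => (hχ u).mpr (hN'' hu)⟩
  · intro x hx hs
    obtain ⟨y, hy1, hy2⟩ := exists_root_EE hp hpS hx (hs.of_restrict hU)
    exact ⟨y, hy1.restrict U, hy2⟩
  · intro g
    refine Units.ext ?_
    show (g : GQ) ((α ^ m : Qbˣ) : Qb) = _
    rw [Units.val_pow_eq_pow_val, map_pow]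
    congr 1
    exact haU g
  · intro g hg
    refine mem_EE_of_pow hpe ?_
    have h1 : (g • d / d) ^ p ^ e = 1 := by
      rw [div_pow, ← smul_pow', hdpow, div_eq_one]
      refine Units.ext ?_
      show (g : GQ) ((d₀ : F) : Qb) = _
      exact (IntermediateField.mem_fixingSubgroup_iff _ _).mp ((hχ g).mp hg) _ (Subtype.mem _)
    rw [h1]
    exact one_mem _
  · refine mem_EE_of_pow hpe ?_
    intro q hq A hA
    set v := W.place A (algebraMap F Qb) q.2.ne_zero hA with hv
    have h2 := hN v (place_notMem_placesAbove F hq hA)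
    have h3 : ((((α ^ m / ∏ j ∈ Finset.range p, σ ^ j • d) ^ p ^ e : Qbˣ)) : Qb) =
        (((a : F) ^ classNumber F / ∏ j ∈ Finset.range p, (resF hFn (σ : GQ) ^ j) (d₀ : F) : F) :
          Qb) := by
      have h4 : (∏ j ∈ Finset.range p, σ ^ j • d) ^ p ^ e = ∏ j ∈ Finset.range p, σ ^ j • δ₀ := by
        rw [← Finset.prod_pow]
        refine Finset.prod_congr rfl fun j _ => ?_
        rw [← smul_pow', hdpow]
      rw [div_pow, h4, ← pow_mul, mul_comm m, ← hem, Units.val_div_eq_div_val,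
        Units.val_pow_eq_pow_val, Units.coe_prod]
      push_cast
      congr 1
      refine Finset.prod_congr rfl fun j _ => ?_
      rw [← resF_pow, coe_resF]
      rfl
    rw [h3]
    refine (W.valuation_eq_one_iff A (algebraMap F Qb) q.2.ne_zero hA (x := (a : F) ^ classNumber F
      / ∏ j ∈ Finset.range p, (resF hFn (σ : GQ) ^ j) (d₀ : F))).mp ?_
    rw [map_div₀, map_pow, ← hv, h2]
    refine div_self ?_
    rw [← map_pow]
    exact (Valuation.ne_zero_iff _).2 (pow_ne_zero _ a.ne_zero)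

end Main

end Fermat.Agent.CFT.D3
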