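import Mathlib
import Fermat.Agent.CFT.Local.NormIndex

/-!
# `p`-power roots of unity in local fields; degrees of cyclotomic `p`-towers
-/

set_option autoImplicit false

open scoped NNReal

namespace Fermat.Agent.CFT.D3

open Local

section Finite

variable (q : ℕ) [Fact q.Prime] (K : Type*) [NormedField K] [NormedAlgebra ℚ_[q] K]
  [FiniteDimensional ℚ_[q] K] [IsUltrametricDist K]

include q in
/-- A finite extension of `ℚ_q` does not contain all `p`-power roots of unity. -/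
theorem exists_no_primitiveRoot {p : ℕ} (hp : p.Prime) (hp2 : p ≠ 2) :
    ∃ n : ℕ, ∀ ζ : K, ¬ IsPrimitiveRoot ζ (p ^ n) := by
  have hk : (iotaHom q K).range.index ≠ 0 := iotaHom_index_ne_zero q K
  obtain ⟨e, m, hm, hem⟩ := Nat.exists_eq_pow_mul_and_not_dvd hk p hp.ne_one
  refine ⟨e + 1, fun ζ hζ => ?_⟩
  have hζ0 : ζ ≠ 0 := hζ.ne_zero (pow_ne_zero _ hp.ne_zero)
  let u : Kˣ := Units.mk0 ζ hζ0
  have hu : IsPrimitiveRoot u (p ^ (e + 1)) := by
    rw [← IsPrimitiveRoot.coe_units_iff]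
    exact hζ
  have hξ : IsPrimitiveRoot (u ^ p ^ e) p := by
    refine hu.pow (pow_pos hp.pos _) ?_
    rw [pow_succ]
  have hη : IsPrimitiveRoot ((u ^ p ^ e) ^ m) p := by
    refine hξ.pow_of_coprime m ?_
    rw [Nat.coprime_comm, hp.coprime_iff_not_dvd]
    exact hm
  rw [← pow_mul, ← hem] at hη
  have hmem : u ^ (iotaHom q K).range.index ∈ (iotaHom q K).range :=
    Subgroup.pow_index_mem _ u
  obtain ⟨⟨n, v⟩, hnv⟩ := hmem
  have h1 : ((n, v) : Multiplicative ℤ × U K ‖(q : K)‖₊) ^ p = 1 := by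
    apply iotaHom_injective q K
    rw [map_pow, map_one, hnv, hη.pow_eq_one]
  have h2 : n ^ p = 1 := congrArg Prod.fst h1
  have h3 : n = 1 := by
    have h4 : p • Multiplicative.toAdd n = 0 := by
      rw [← toAdd_pow, h2, toAdd_one]
    have h5 : Multiplicative.toAdd n = 0 := by
      rcases smul_eq_zero.mp h4 with h | h
      · exact absurd h hp.ne_zero
      · exact h
    exact h5
  have h4 : v ^ p = 1 := congrArg Prod.snd h1
  have hle : ‖(q : K)‖₊ ≤ ‖(p : K)‖₊ := by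
    by_cases hpq : p = q
    · subst hpq
      exact le_rfl
    · rw [nnnorm_natCast_prime q K hp hpq]
      exact_mod_cast (norm_natCast_q_lt_one q K).le
  have h5 : (v : Kˣ) = 1 := by
    refine eq_one_of_pow_eq_one_of_mem_U hp hp2 (natCast_ne_zero_of_prime q K hp) hle
      (by exact_mod_cast norm_natCast_q_lt_one q K) v.2 ?_
    have := congrArg Subtype.val h4
    simpa using this
  have h6 : u ^ (iotaHom q K).range.index = 1 := by
    rw [← hnv, iotaHom_apply, h3, h5]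
    simp
  exact hη.ne_one hp.one_lt h6

end Finite

section Tower

open Polynomial IntermediateField

/-- Degrees in the cyclotomic `p`-tower. -/
theorem finrank_adjoin_root {K E : Type*} [Field K] [Field E] [Algebra K E] {p : ℕ}
    (hp : p.Prime) (hp2 : p ≠ 2) {n₀ : ℕ} {η : K} (hη : IsPrimitiveRoot η (p ^ n₀))
    (hno : ∀ ζ : K, ¬ IsPrimitiveRoot ζ (p ^ (n₀ + 1))) (hn₀ : 0 < n₀) {k : ℕ} {ζ : E}
    (hζ : IsPrimitiveRoot ζ (p ^ (n₀ + k))) :
    Module.finrank K K⟮ζ⟯ = p ^ k := by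
  -- `ζ ^ (p ^ k)` lies in `K`
  have h1 : IsPrimitiveRoot (ζ ^ p ^ k) (p ^ n₀) := by
    refine hζ.pow (pow_pos hp.pos _) ?_
    rw [pow_add, mul_comm]
  have hη' : IsPrimitiveRoot (algebraMap K E η) (p ^ n₀) :=
    hη.map_of_injective (algebraMap K E).injective
  have : NeZero (p ^ n₀) := ⟨pow_ne_zero _ hp.ne_zero⟩
  obtain ⟨i, -, hi⟩ := hη'.eq_pow_of_pow_eq_one h1.pow_eq_one
  set a : K := η ^ i with ha
  have haE : ζ ^ p ^ k = algebraMap K E a := by rw [ha, map_pow, hi]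
  have haprim : IsPrimitiveRoot a (p ^ n₀) := by
    refine IsPrimitiveRoot.of_map_of_injective (f := algebraMap K E) ?_
      (algebraMap K E).injective
    rw [← haE]
    exact h1
  have hnp : ∀ b : K, b ^ p ≠ a := by
    intro b hb
    refine hno b ?_
    have h2 : IsPrimitiveRoot (b ^ p) (p ^ n₀) := by rw [hb]; exact haprim
    rw [IsPrimitiveRoot.iff_orderOf] at h2 ⊢
    have h3 : b ^ p ^ (n₀ + 1) = 1 := by
      rw [pow_succ', pow_mul, hb, haprim.pow_eq_one]
    have h4 : ¬ b ^ p ^ n₀ = 1 := by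
      intro h5
      have h6 : (b ^ p) ^ p ^ (n₀ - 1) = 1 := by
        rw [← pow_mul, ← pow_succ', Nat.sub_add_cancel hn₀]
        exact h5
      rw [hb] at h6
      have h7 := haprim.dvd_of_pow_eq_one _ h6
      have h8 := Nat.le_of_dvd (pow_pos hp.pos _) h7
      have h9 : p ^ (n₀ - 1) < p ^ n₀ := Nat.pow_lt_pow_right hp.one_lt (by omega)
      omega
    have := Fact.mk hp
    exact orderOf_eq_prime_pow h4 h3
  have hirr : Irreducible (X ^ p ^ k - C a : K[X]) :=
    X_pow_sub_C_irreducible_of_prime_pow hp hp2 k hnp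
  have hroot : aeval ζ (X ^ p ^ k - C a : K[X]) = 0 := by
    simp [haE]
  have hmonic : (X ^ p ^ k - C a : K[X]).Monic := monic_X_pow_sub_C _ (pow_ne_zero _ hp.ne_zero)
  have hmin : minpoly K ζ = X ^ p ^ k - C a :=
    (minpoly.eq_of_irreducible_of_monic hirr hroot hmonic).symm
  have hint : IsIntegral K ζ := ⟨_, hmonic, by rwa [← aeval_def]⟩
  rw [adjoin.finrank hint, hmin, natDegree_X_pow_sub_C]

/-- no stalling in the cyclotomic `p`-tower -/
theorem notMem_adjoin_root {K E : Type*} [Field K] [Field E] [Algebra K E] {p : ℕ}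
    (hp : p.Prime) (hp2 : p ≠ 2) {n₀ : ℕ} {η : K} (hη : IsPrimitiveRoot η (p ^ n₀))
    (hno : ∀ ζ : K, ¬ IsPrimitiveRoot ζ (p ^ (n₀ + 1))) (hn₀ : 0 < n₀) {n : ℕ} (hn : n₀ ≤ n)
    {ζ ζ' : E} (hζ : IsPrimitiveRoot ζ (p ^ n)) (hζ' : IsPrimitiveRoot ζ' (p ^ (n + 1))) :
    ζ' ∉ K⟮ζ⟯ := by
  obtain ⟨k, rfl⟩ := Nat.exists_eq_add_of_le hn
  have h1 := finrank_adjoin_root hp hp2 hη hno hn₀ hζ
  have h2 := finrank_adjoin_root hp hp2 hη hno hn₀ (k := k + 1) (ζ := ζ') (by
    rwa [← add_assoc])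
  intro hmem
  have hle : K⟮ζ'⟯ ≤ K⟮ζ⟯ := by
    rw [adjoin_simple_le_iff]
    exact hmem
  have hfin : FiniteDimensional K K⟮ζ⟯ :=
    FiniteDimensional.of_finrank_pos (by rw [h1]; exact pow_pos hp.pos _)
  have h3 := IntermediateField.finrank_le_of_le_right hle
  rw [h1, h2] at h3
  have h4 : p ^ k < p ^ (k + 1) := Nat.pow_lt_pow_right hp.one_lt (by omega)
  omega

end Tower

end Fermat.Agent.CFT.D3
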