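import Mathlib
import Fermat.Agent.CFT.D3.RootsLocal
import Fermat.Agent.CFT.D3.Descent
import Fermat.Agent.CFT.Embed

/-!
# The cyclotomic tower over a given number field has full local degree eventually
-/

set_option autoImplicit false

open Pointwise NumberField IsDedekindDomain IntermediateField

namespace Fermat.Agent.CFT.D3

open LC

local notation "Qb" => AlgebraicClosure ℚ
local notation "GQ" => (AlgebraicClosure ℚ ≃ₐ[ℚ] AlgebraicClosure ℚ)

section Local

variable (q : ℕ) [Fact q.Prime]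

instance finiteDimensional_localField (K : IntermediateField ℚ Qb) [FiniteDimensional ℚ K]
    (g : GQ) : FiniteDimensional ℚ_[q] (W.localField q K g) :=
  Embed.finiteDimensional_locF q (W.emb q K g)

theorem mem_localField (K : IntermediateField ℚ Qb) {x : Qb} (hx : x ∈ K) (g : GQ) :
    padicEmbedding q (g x) ∈ W.localField q K g :=
  IntermediateField.subset_adjoin _ _ ⟨⟨x, hx⟩, rfl⟩

theorem mem_localField_one (K : IntermediateField ℚ Qb) {x : Qb} (hx : x ∈ K) :
    padicEmbedding q x ∈ W.localField q K 1 := mem_localField q K hx 1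

theorem exists_tower {p : ℕ} (hp : p.Prime) (hp2 : p ≠ 2) (K₀ : IntermediateField ℚ Qb)
    [FiniteDimensional ℚ K₀] :
    ∃ n₁ : ℕ, 0 < n₁ ∧ ∀ n, n₁ ≤ n → ∀ ζ ζ' : Qb, IsPrimitiveRoot ζ (p ^ n) →
      IsPrimitiveRoot ζ' (p ^ (n + 1)) →
      padicEmbedding q ζ' ∉ W.localField q (K₀ ⊔ ℚ⟮ζ⟯) 1 := by
  have : NeZero p := ⟨hp.ne_zero⟩
  obtain ⟨ζ₁, hζ₁⟩ := HasEnoughRootsOfUnity.exists_primitiveRoot Qb p
  have hfd1 : FiniteDimensional ℚ ℚ⟮ζ₁⟯ :=
    adjoin.finiteDimensional (Algebra.IsIntegral.isIntegral (R := ℚ) ζ₁)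
  set K₁ : IntermediateField ℚ Qb := K₀ ⊔ ℚ⟮ζ₁⟯ with hK₁
  have hfdK₁ : FiniteDimensional ℚ K₁ := IntermediateField.finiteDimensional_sup _ _
  set M := W.localField q K₁ 1 with hM
  have hinj : Function.Injective (padicEmbedding q) := (padicEmbedding q).injective
  classical
  have hex : ∃ n : ℕ, ∀ ζ : M, ¬ IsPrimitiveRoot ζ (p ^ n) := exists_no_primitiveRoot q M hp hp2
  have h0 : Nat.find hex ≠ 0 := by
    intro h
    have h1 := Nat.find_spec hex
    rw [h] at h1
    apply h1 1
    rw [pow_zero]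
    exact IsPrimitiveRoot.one
  have h1 : Nat.find hex ≠ 1 := by
    intro h
    have h2 := Nat.find_spec hex
    rw [h] at h2
    have h3 : ζ₁ ∈ K₁ := (le_sup_right : ℚ⟮ζ₁⟯ ≤ K₁) (mem_adjoin_simple_self ℚ ζ₁)
    apply h2 ⟨padicEmbedding q ζ₁, mem_localField_one q K₁ h3⟩
    rw [pow_one]
    have h4 : IsPrimitiveRoot (padicEmbedding q ζ₁) p := hζ₁.map_of_injective hinj
    exact IsPrimitiveRoot.of_map_of_injective (f := algebraMap M (PadicAlgCl q)) h4
      (algebraMap M (PadicAlgCl q)).injective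
  obtain ⟨n₀, hn₀⟩ : ∃ n₀, Nat.find hex = n₀ + 1 := ⟨Nat.find hex - 1, by omega⟩
  have hn₀pos : 0 < n₀ := by omega
  have hno := Nat.find_spec hex
  rw [hn₀] at hno
  have hyes : ∃ η : M, IsPrimitiveRoot η (p ^ n₀) := by
    have := Nat.find_min hex (m := n₀) (by omega)
    push Not at this
    exact this
  obtain ⟨η, hη⟩ := hyes
  refine ⟨n₀, hn₀pos, fun n hn ζ ζ' hζ hζ' hmem => ?_⟩
  have h2 : IsPrimitiveRoot (padicEmbedding q ζ) (p ^ n) := hζ.map_of_injective hinj
  have h3 : IsPrimitiveRoot (padicEmbedding q ζ') (p ^ (n + 1)) := hζ'.map_of_injective hinj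
  refine notMem_adjoin_root hp hp2 hη hno hn₀pos hn h2 h3 ?_
  -- `localField q (K₀ ⊔ ℚ(ζ)) 1 ≤ M(ι ζ)`
  set M' : IntermediateField ℚ_[q] (PadicAlgCl q) := (M⟮padicEmbedding q ζ⟯).restrictScalars ℚ_[q]
    with hM'
  have hle : W.localField q (K₀ ⊔ ℚ⟮ζ⟯) 1 ≤ M' := by
    rw [W.localField, IntermediateField.adjoin_le_iff]
    rintro _ ⟨⟨x, hx⟩, rfl⟩
    rw [W.emb_apply]
    show padicEmbedding q x ∈ M'
    -- the subfield of elements mapped into `M'`
    have key : ∀ y ∈ K₀ ⊔ ℚ⟮ζ⟯, padicEmbedding q y ∈ M' := by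
      intro y hy
      have hsub : K₀ ⊔ ℚ⟮ζ⟯ = IntermediateField.adjoin ℚ ((K₀ : Set Qb) ∪ {ζ}) := by
        rw [IntermediateField.adjoin_union, IntermediateField.adjoin_self]
      rw [hsub] at hy
      induction hy using IntermediateField.adjoin_induction with
      | mem z hz =>
        rcases hz with hz | hz
        · have hz' : z ∈ K₁ := (le_sup_left : K₀ ≤ K₁) hz
          have h5 : padicEmbedding q z ∈ M := mem_localField_one q K₁ hz'
          exact (M⟮padicEmbedding q ζ⟯).algebraMap_mem ⟨_, h5⟩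
        · rw [Set.mem_singleton_iff] at hz
          rw [hz]
          exact mem_adjoin_simple_self M (padicEmbedding q ζ)
      | algebraMap r =>
        have h5 : padicEmbedding q (algebraMap ℚ Qb r) = algebraMap ℚ_[q] (PadicAlgCl q) (r : ℚ_[q]) := by
          rw [eq_ratCast, map_ratCast, map_ratCast]
        rw [h5]
        exact M'.algebraMap_mem _
      | add a b _ _ ha hb =>
        rw [map_add]
        exact M'.add_mem ha hb
      | inv a _ ha =>
        rw [map_inv₀]
        exact M'.inv_mem ha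
      | mul a b _ _ ha hb =>
        rw [map_mul]
        exact M'.mul_mem ha hb
    exact key x hx
  exact hle hmem

end Local

end Fermat.Agent.CFT.D3
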