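import Mathlib
import Fermat.Agent.CFT.D3.Tower
import Fermat.Agent.CFT.Hasse.Concrete

/-!
# The auxiliary Kummer tower `K ⊂ F = K(α)` inside `ℚ_S`, with full local degree at all `q ∈ S`
-/

set_option autoImplicit false
set_option linter.unusedSectionVars false

open Pointwise NumberField IsDedekindDomain IntermediateField

namespace Fermat.Agent.CFT.D3

open LC Fermat.Agent.CFT.Hasse

local notation "Qb" => AlgebraicClosure ℚ
local notation "GQ" => (AlgebraicClosure ℚ ≃ₐ[ℚ] AlgebraicClosure ℚ)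

/-- The primes as a `Fact`. -/
instance factPrimes (q : Nat.Primes) : Fact (q : ℕ).Prime := ⟨q.2⟩

/-- The auxiliary tower. -/
structure Twr (p : ℕ) [hp : Fact p.Prime] (S : Finset Nat.Primes) where
  /-- the base field -/
  K : IntermediateField ℚ Qb
  /-- the Kummer extension -/
  F : IntermediateField ℚ Qb
  /-- a primitive `p`-th root of unity -/
  ξ : Qbˣ
  /-- the Kummer generator -/
  α : Qbˣ
  hp2 : p ≠ 2
  hpS : (⟨p, hp.out⟩ : Nat.Primes) ∈ S
  hK : K.IsUnramifiedOutside S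
  hKn : IsNorm K
  hF : F.IsUnramifiedOutside S
  hFn : IsNorm F
  hξ : IsPrimitiveRoot ξ p
  hξK : (ξ : Qb) ∈ K
  hαK : ((α : Qb)) ^ p ∈ K
  hKF : K ≤ F
  hαF : (α : Qb) ∈ F
  hFix : ∀ u ∈ K.fixingSubgroup, u (α : Qb) = α → u ∈ F.fixingSubgroup
  hloc : ∀ q ∈ S, ∀ g : GQ, padicEmbedding q (g (α : Qb)) ∉ W.localField q K g

section Exists

variable {S : Finset Nat.Primes}

theorem isNorm_adjoin_root {n : ℕ} [NeZero n] {a : Qb} (ha : IsPrimitiveRoot a n) :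
    IsNorm ℚ⟮a⟯ := by
  have h1 : IsCyclotomicExtension {n} ℚ ℚ⟮a⟯ := ha.intermediateField_adjoin_isCyclotomicExtension ℚ
  have h2 : IsGalois ℚ ℚ⟮a⟯ := IsCyclotomicExtension.isGalois {n} ℚ ℚ⟮a⟯
  exact h2.to_normal

theorem unrEl_root {p : ℕ} (hp : p.Prime) (hpS : (⟨p, hp⟩ : Nat.Primes) ∈ S) {n : ℕ} {a : Qb}
    (ha : IsPrimitiveRoot a (p ^ n)) : UnrEl S a := by
  intro q hq A hA τ hτ
  have hpq : p.Coprime q := by
    rw [Nat.coprime_primes hp q.2]
    rintro rfl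
    exact hq hpS
  refine inertia_fix_of_pow hp hpq hA hτ (e := n) ?_ ?_
  · exact valuation_eq_one_of_pow (pow_pos hp.pos n).ne' (by rw [ha.pow_eq_one, map_one])
  · rw [ha.pow_eq_one, map_one]

theorem isUnramifiedOutside_adjoin_root {p : ℕ} (hp : p.Prime)
    (hpS : (⟨p, hp⟩ : Nat.Primes) ∈ S) {n : ℕ} {a : Qb}
    (ha : IsPrimitiveRoot a (p ^ n)) : (ℚ⟮a⟯).IsUnramifiedOutside S :=
  isUnramifiedOutside_adjoin (Set.finite_singleton _) (by rintro _ rfl; exact unrEl_root hp hpS ha)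

/-- For a normal subfield the local fields do not depend on the embedding. -/
theorem localField_eq (q : ℕ) [Fact q.Prime] {K : IntermediateField ℚ Qb} (hK : IsNorm K)
    (g : GQ) : W.localField q K g = W.localField q K 1 := by
  have hKn := hK.normal_fixingSubgroup
  unfold W.localField
  congr 1
  apply le_antisymm
  · rintro _ ⟨x, rfl⟩
    exact ⟨⟨g x, apply_mem_of_normal hKn g x.2⟩, rfl⟩
  · rintro _ ⟨x, rfl⟩
    refine ⟨⟨g⁻¹ x, apply_mem_of_normal hKn g⁻¹ x.2⟩, ?_⟩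
    rw [W.emb_apply, W.emb_apply]
    congr 1
    exact g.apply_symm_apply _

theorem exists_Twr {p : ℕ} [hp : Fact p.Prime] (hp2 : p ≠ 2)
    (hpS : (⟨p, hp.out⟩ : Nat.Primes) ∈ S) {N : Subgroup GQ} (hN : N ∈ (unram S).levels) :
    ∃ T : Twr p S, T.K.fixingSubgroup ≤ N := by
  classical
  obtain ⟨K₀, hK₀, hK₀n, rfl⟩ := hN
  have hfd₀ : FiniteDimensional ℚ K₀ := hK₀.1
  choose n₁ hn₁ hn₁' using fun q : Nat.Primes => exists_tower q hp.out hp2 K₀
  obtain ⟨n, hn0, hn⟩ : ∃ n : ℕ, 0 < n ∧ ∀ q ∈ S, n₁ q ≤ n := by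
    refine ⟨S.sup n₁ + 1, Nat.succ_pos _, fun q hq => ?_⟩
    exact (Finset.le_sup hq).trans (Nat.le_succ _)
  have hNZ : NeZero p := ⟨hp.out.ne_zero⟩
  have hNZ1 : NeZero (p ^ n) := ⟨(pow_pos hp.out.pos n).ne'⟩
  have hNZ2 : NeZero (p ^ (n + 1)) := ⟨(pow_pos hp.out.pos _).ne'⟩
  obtain ⟨α, hα⟩ := HasEnoughRootsOfUnity.exists_primitiveRoot Qb (p ^ (n + 1))
  have ha : IsPrimitiveRoot (α ^ p) (p ^ n) := hα.pow (pow_pos hp.out.pos _) (by rw [pow_succ'])
  have hξ : IsPrimitiveRoot ((α ^ p) ^ p ^ (n - 1)) p := by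
    refine ha.pow (pow_pos hp.out.pos _) ?_
    rw [← pow_succ]
    congr 1
    omega
  set K : IntermediateField ℚ Qb := K₀ ⊔ ℚ⟮α ^ p⟯ with hK
  set F : IntermediateField ℚ Qb := K ⊔ ℚ⟮α⟯ with hF
  have hKu : K.IsUnramifiedOutside S :=
    hK₀.sup (isUnramifiedOutside_adjoin_root hp.out hpS ha)
  have hKn : IsNorm K := hK₀n.sup (isNorm_adjoin_root ha)
  have hFu : F.IsUnramifiedOutside S :=
    hKu.sup (isUnramifiedOutside_adjoin_root hp.out hpS hα)
  have hFn : IsNorm F := hKn.sup (isNorm_adjoin_root hα)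
  have haK : α ^ p ∈ K := (le_sup_right : ℚ⟮α ^ p⟯ ≤ K) (mem_adjoin_simple_self ℚ _)
  have hα0 : α ≠ 0 := hα.ne_zero (pow_pos hp.out.pos _).ne'
  have hξ0 : (α ^ p) ^ p ^ (n - 1) ≠ 0 := pow_ne_zero _ (pow_ne_zero _ hα0)
  refine ⟨{ K := K, F := F, ξ := Units.mk0 _ hξ0, α := Units.mk0 α hα0, hp2 := hp2, hpS := hpS,
            hK := hKu, hKn := hKn, hF := hFu, hFn := hFn, hξ := ?_, hξK := ?_, hαK := haK,
            hKF := le_sup_left, hαF := ?_, hFix := ?_, hloc := ?_ }, ?_⟩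
  · exact IsPrimitiveRoot.of_map_of_injective (f := Units.coeHom Qb) hξ Units.val_injective
  · exact pow_mem haK _
  · exact (le_sup_right : ℚ⟮α⟯ ≤ F) (mem_adjoin_simple_self ℚ _)
  · intro u hu huα
    have h1 : u ∈ (ℚ⟮α⟯).fixingSubgroup := by
      rw [mem_fixingSubgroup_adjoin_iff]
      rintro _ rfl
      exact huα
    rw [hF, IntermediateField.fixingSubgroup_sup]
    exact ⟨hu, h1⟩
  · intro q hq g hmem
    rw [localField_eq q hKn g] at hmem
    have hgα : IsPrimitiveRoot (g α) (p ^ (n + 1)) := hα.map_of_injective g.injective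
    exact hn₁' q n (hn q hq) (α ^ p) (g α) ha hgα hmem
  · exact IntermediateField.fixingSubgroup_antitone le_sup_left

end Exists

end Fermat.Agent.CFT.D3
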