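import Mathlib
import Fermat.Agent.CFT.D3.Setup
import Fermat.Agent.CFT.W.Orbits

/-!
# The Kummer character of the auxiliary tower
-/

set_option autoImplicit false
set_option linter.unusedSectionVars false

open Pointwise NumberField IsDedekindDomain IntermediateField

namespace Fermat.Agent.CFT.D3

open LC Fermat.Agent.CFT.Hasse ExtCitation

local notation "Qb" => AlgebraicClosure ℚ
local notation "GQ" => (AlgebraicClosure ℚ ≃ₐ[ℚ] AlgebraicClosure ℚ)

section Abstract

variable {p : ℕ} [hp : Fact p.Prime]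

/-- The Kummer character of an element. -/
theorem exists_kummerChar {U A : Type*} [Group U] [CommGroup A] [MulDistribMulAction U A]
    {ξ α : A} (h1 : ξ ^ p = 1) (hinj : ∀ c : ZMod p, zp ξ c = 1 → c = 0)
    (htors : ∀ x : A, x ^ p = 1 → ∃ c : ZMod p, zp ξ c = x) (hξ : ∀ u : U, u • ξ = ξ)
    (hα : ∀ u : U, (u • α) ^ p = α ^ p) :
    ∃ θ : U →* Multiplicative (ZMod p), ∀ u : U, u • α = zp ξ (θ u).toAdd * α := by
  have hz : ∀ u : U, ∃ c : ZMod p, u • α = zp ξ c * α := by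
    intro u
    obtain ⟨c, hc⟩ := htors (u • α / α) (by rw [div_pow, hα, div_self'])
    exact ⟨c, by rw [hc, div_mul_cancel]⟩
  choose c hc using hz
  have hsm : ∀ (u : U) (c : ZMod p), u • zp ξ c = zp ξ c := by
    intro u c
    unfold zp
    rw [smul_pow', hξ]
  have hinj' : ∀ a b : ZMod p, zp ξ a = zp ξ b → a = b := by
    intro a b hab
    have h2 : zp ξ (a - b) = 1 := by rw [zp_sub h1, hab, div_self']
    exact sub_eq_zero.mp (hinj _ h2)
  have hmul : ∀ u v : U, c (u * v) = c u + c v := by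
    intro u v
    apply hinj'
    have h3 : zp ξ (c (u * v)) * α = (zp ξ (c u) * zp ξ (c v)) * α := by
      rw [← hc, mul_smul, hc v, smul_mul', hsm, hc u]
      rw [mul_left_comm, mul_assoc]
    rw [zp_add h1]
    exact mul_right_cancel h3
  refine ⟨⟨⟨fun u => Multiplicative.ofAdd (c u), ?_⟩, ?_⟩, fun u => hc u⟩
  · have h4 := hmul 1 1
    rw [mul_one, left_eq_add] at h4
    rw [h4, ofAdd_zero]
  · intro u v
    show Multiplicative.ofAdd (c (u * v)) = _
    rw [hmul, ofAdd_add]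

/-- A nontrivial character to `ZMod p` takes the value `1`. -/
theorem exists_eq_ofAdd_one {G : Type*} [Group G] (θ : G →* Multiplicative (ZMod p)) {g : G}
    (hg : θ g ≠ 1) : ∃ σ : G, θ σ = Multiplicative.ofAdd 1 := by
  have : NeZero p := ⟨hp.out.ne_zero⟩
  have h0 : (θ g).toAdd ≠ 0 := fun h => hg (by rw [← ofAdd_toAdd (θ g), h, ofAdd_zero])
  refine ⟨g ^ ((θ g).toAdd)⁻¹.val, ?_⟩
  rw [map_pow, ← ofAdd_toAdd (θ g), ← ofAdd_nsmul, nsmul_eq_mul, ZMod.natCast_val, ZMod.cast_id',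
    id_eq, toAdd_ofAdd, inv_mul_cancel₀ h0]

end Abstract

namespace Twr

variable {p : ℕ} [hp : Fact p.Prime] {S : Finset Nat.Primes} (T : Twr p S)

/-- the open subgroup of the tower -/
noncomputable abbrev U : Subgroup GQ := T.K.fixingSubgroup

theorem U_mem : T.U ∈ (unram S).levels := ⟨T.K, T.hK, T.hKn, rfl⟩

theorem U_isOpen : (unram S).IsOpen T.U := Lvl.IsOpen.of_mem T.U_mem

instance finiteDimensional_K : FiniteDimensional ℚ T.K := T.hK.1

instance finiteDimensional_F : FiniteDimensional ℚ T.F := T.hF.1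

theorem smul_ξ {u : GQ} (hu : u ∈ T.U) : u • T.ξ = T.ξ :=
  Units.ext ((IntermediateField.mem_fixingSubgroup_iff _ _).1 hu _ T.hξK)

theorem smul_α_pow {u : GQ} (hu : u ∈ T.U) : (u • T.α) ^ p = T.α ^ p := by
  rw [← smul_pow']
  apply Units.ext
  exact (IntermediateField.mem_fixingSubgroup_iff _ _).1 hu _
    (by rw [Units.val_pow_eq_pow_val]; exact T.hαK)

/-- the Kummer datum of `G_ℚ` -/
theorem kd : KData p (krull ℚ Qb) (cycloChar p) Qbˣ T.ξ := kdataQ T.hξ

theorem exists_θ : ∃ θ : T.U →* Multiplicative (ZMod p),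
    ∀ u : T.U, u • T.α = zp T.ξ (θ u).toAdd * T.α :=
  exists_kummerChar T.kd.pow T.kd.inj T.kd.tors (fun u => T.smul_ξ u.2)
    (fun u => T.smul_α_pow u.2)

/-- the Kummer character of the tower -/
noncomputable def θ : T.U →* Multiplicative (ZMod p) := T.exists_θ.choose

theorem θ_spec (u : T.U) : u • T.α = zp T.ξ (T.θ u).toAdd * T.α := T.exists_θ.choose_spec u

theorem θ_eq_one_iff (u : T.U) : T.θ u = 1 ↔ u • T.α = T.α := by
  rw [T.θ_spec, mul_eq_right]
  constructor
  · intro h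
    rw [h, toAdd_one, zp_zero]
  · intro h
    rw [← ofAdd_toAdd (T.θ u), T.kd.inj _ h, ofAdd_zero]

theorem θ_eq_one_iff' (u : T.U) : T.θ u = 1 ↔ (u : GQ) ∈ T.F.fixingSubgroup := by
  rw [θ_eq_one_iff]
  constructor
  · intro h
    exact T.hFix u u.2 (congrArg Units.val h)
  · intro h
    exact Units.ext ((IntermediateField.mem_fixingSubgroup_iff _ _).1 h _ T.hαF)

theorem θ_ker_isOpen : ((unram S).restrict T.U).IsOpen T.θ.ker := by
  refine ⟨_, ⟨T.F.fixingSubgroup, ⟨T.F, T.hF, T.hFn, rfl⟩, rfl⟩, fun u hu => ?_⟩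
  rw [MonoidHom.mem_ker, θ_eq_one_iff']
  exact hu

section Loc

variable {q : Nat.Primes} (hq : q ∈ S) (g : GQ)

/-- the local group -/
noncomputable abbrev Dec (q : Nat.Primes) (g : GQ) :
    Subgroup (PadicAlgCl (q : ℕ) ≃ₐ[ℚ_[(q : ℕ)]] PadicAlgCl (q : ℕ)) :=
  LC.stab (W.permLoc q T.K) (QuotientGroup.mk g)

theorem mem_Dec {τ : PadicAlgCl (q : ℕ) ≃ₐ[ℚ_[(q : ℕ)]] PadicAlgCl (q : ℕ)} :
    τ ∈ T.Dec q g ↔ τ ∈ (W.localField q T.K g).fixingSubgroup := W.mem_stab_permLoc _ _ _ _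

theorem mem_Dec_iff {τ : PadicAlgCl (q : ℕ) ≃ₐ[ℚ_[(q : ℕ)]] PadicAlgCl (q : ℕ)} :
    τ ∈ T.Dec q g ↔ locConj q g τ ∈ T.U := by
  rw [mem_Dec, W.mem_fixingSubgroup_localField, locConj_apply]

/-- the map from the local group to `U` -/
noncomputable def fw (q : Nat.Primes) (g : GQ) : T.Dec q g →* T.U :=
  ((locConj q g).comp (T.Dec q g).subtype).codRestrict T.U fun w => (T.mem_Dec_iff g).1 w.2

@[simp] theorem coe_fw (w : T.Dec q g) : (T.fw q g w : GQ) = locConj q g w := rfl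

theorem locUnits_fw_smul (w : T.Dec q g) (x : Qbˣ) :
    locUnits q g (T.fw q g w • x) = w • locUnits q g x := locUnits_smul q g w x

/-- the local Kummer character -/
noncomputable def θw (q : Nat.Primes) (g : GQ) : T.Dec q g →* Multiplicative (ZMod p) :=
  T.θ.comp (T.fw q g)

theorem θw_spec (w : T.Dec q g) :
    w • locUnits q g T.α = zp (locUnits q g T.ξ) (T.θw q g w).toAdd * locUnits q g T.α := by
  rw [← locUnits_fw_smul, T.θ_spec, map_mul, map_zp]
  rfl

theorem zp_locUnits_eq_one_iff (c : ZMod p) : zp (locUnits q g T.ξ) c = 1 ↔ c = 0 := by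
  constructor
  · intro h
    rw [← map_zp] at h
    apply T.kd.inj
    have hinj : Function.Injective (locUnits (q : ℕ) g) := by
      refine Units.map_injective ?_
      intro x y hxy
      exact g.injective ((padicEmbedding q).injective hxy)
    exact hinj (h.trans (map_one _).symm)
  · rintro rfl
    exact zp_zero

theorem θw_eq_one_iff (w : T.Dec q g) : T.θw q g w = 1 ↔ w • locUnits q g T.α = locUnits q g T.α := by
  rw [θw_spec, mul_eq_right, zp_locUnits_eq_one_iff]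
  constructor
  · intro h
    rw [h, toAdd_one]
  · intro h
    rw [← ofAdd_toAdd (T.θw q g w), h, ofAdd_zero]

include hq in
theorem exists_θw : ∃ σ : T.Dec q g, T.θw q g σ = Multiplicative.ofAdd 1 := by
  have h1 := T.hloc q hq g
  have h2 : ¬ ∀ v ∈ (W.localField q T.K g).fixingSubgroup,
      v (padicEmbedding q (g (T.α : Qb))) = padicEmbedding q (g (T.α : Qb)) := by
    intro h
    apply h1
    rw [← InfiniteGalois.fixedField_fixingSubgroup (W.localField q T.K g)]
    exact fun v ↦ h v.1 v.2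
  push Not at h2
  obtain ⟨v, hv, hne⟩ := h2
  refine exists_eq_ofAdd_one (T.θw q g) (g := ⟨v, (T.mem_Dec g).2 hv⟩) ?_
  rw [Ne, θw_eq_one_iff]
  intro h
  exact hne (congrArg Units.val h)

/-- The continuous map `W → U`. -/
theorem cont_fw : ((lvlOver (localGaloisToGlobal q)).restrict (T.Dec q g)).Cont
    ((unram S).restrict T.U) (T.fw q g) := by
  rintro _ ⟨N, hN, rfl⟩
  have hNn := (unram S).normal N hN
  obtain ⟨F, hF, hFn, rfl⟩ := hN
  refine ⟨_, ⟨_, ⟨F.fixingSubgroup, ⟨F, hF.1, hFn, rfl⟩, rfl⟩, rfl⟩, fun x hx => ?_⟩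
  show locConj q g x ∈ F.fixingSubgroup
  rw [locConj_apply]
  have h1 := hNn.conj_mem _ (show localGaloisToGlobal q x ∈ F.fixingSubgroup from hx) g⁻¹
  rwa [inv_inv] at h1

theorem θw_ker_isOpen :
    ((lvlOver (localGaloisToGlobal q)).restrict (T.Dec q g)).IsOpen (T.θw q g).ker := by
  obtain ⟨N, hN, hle⟩ := T.θ_ker_isOpen
  obtain ⟨N', hN', h⟩ := T.cont_fw g N hN
  refine ⟨N', hN', fun w hw => ?_⟩
  rw [MonoidHom.mem_ker]
  exact hle (h hw)

end Loc

theorem exists_σ : ∃ σ : T.U, T.θ σ = Multiplicative.ofAdd 1 := by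
  obtain ⟨w, hw⟩ := T.exists_θw T.hpS 1
  exact ⟨_, hw⟩

end Twr

end Fermat.Agent.CFT.D3
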