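import Mathlib
import Fermat.Agent.CFT.D3.Theta
import Fermat.Agent.CFT.D3.Sym
import Fermat.Agent.CFT.NormGal

/-!
# The local symbol maps of the auxiliary tower
-/

set_option autoImplicit false
set_option linter.unusedSectionVars false

open Pointwise NumberField IsDedekindDomain IntermediateField Module

namespace Fermat.Agent.CFT.D3

open LC Fermat.Agent.CFT.Hasse ExtCitation PT NormGrp

local notation "Qb" => AlgebraicClosure ℚ
local notation "GQ" => (AlgebraicClosure ℚ ≃ₐ[ℚ] AlgebraicClosure ℚ)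

namespace Twr

variable {p : ℕ} [hp : Fact p.Prime] {S : Finset Nat.Primes} (T : Twr p S)

/-- the element `α ^ p` of `K` -/
noncomputable def a : T.K := ⟨(T.α : Qb) ^ p, T.hαK⟩

@[simp] theorem coe_a : (T.a : Qb) = (T.α : Qb) ^ p := rfl

/-- the root of unity in `K` -/
noncomputable def ξK : T.K := ⟨(T.ξ : Qb), T.hξK⟩

@[simp] theorem coe_ξK : (T.ξK : Qb) = (T.ξ : Qb) := rfl

theorem hξK' : IsPrimitiveRoot T.ξK p := by
  refine IsPrimitiveRoot.of_map_of_injective (f := algebraMap T.K Qb) ?_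
    (algebraMap T.K Qb).injective
  exact T.hξ.map_of_injective (f := Units.coeHom Qb) Units.val_injective

theorem a_ne_zero : T.a ≠ 0 := by
  intro h
  have h1 := congrArg (fun x : T.K => (x : Qb)) h
  simp only [coe_a, ZeroMemClass.coe_zero, pow_eq_zero_iff hp.out.ne_zero] at h1
  exact T.α.ne_zero h1

section Loc

variable (q : Nat.Primes) (g : GQ)

/-- the local embedding -/
noncomputable abbrev le : LocEmb T.K := ⟨(q : ℕ), W.emb q T.K g⟩

/-- the local levels -/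
noncomputable abbrev Lw : Lvl (T.Dec q g) :=
  (lvlOver (localGaloisToGlobal (q : ℕ))).restrict (T.Dec q g)

/-- the local representation -/
noncomputable abbrev ρw : Representation (ZMod p) (T.Dec q g) (ZMod p) :=
  ((mu (cycloChar p)).comp (localGaloisToGlobal (q : ℕ))).comp (T.Dec q g).subtype

theorem kdw : KData p (T.Lw q g)
    (((cycloChar p).comp (localGaloisToGlobal (q : ℕ))).comp (T.Dec q g).subtype)
    (PadicAlgCl (q : ℕ))ˣ (locUnits q 1 T.ξ) :=
  kdata_restrict (kdataLoc (q : ℕ) T.hξ) (T.Dec q g)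

theorem h90w (V : Subgroup (T.Dec q g)) : H90 (T.Lw q g) V (PadicAlgCl (q : ℕ))ˣ :=
  h90Loc (q : ℕ) _ V

theorem ρw_apply (w : T.Dec q g) (x : ZMod p) : T.ρw q g w x =
    (((((cycloChar p).comp (localGaloisToGlobal (q : ℕ))).comp (T.Dec q g).subtype) w : (ZMod p)ˣ) :
      ZMod p) * x := by
  show mu (cycloChar p) (localGaloisToGlobal (q : ℕ) w) x = _
  rw [mu_apply]
  rfl

/-- the inclusion of the units of the local field -/
noncomputable def inM : ((T.le q g).L)ˣ →* (PadicAlgCl (q : ℕ))ˣ :=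
  Units.map (algebraMap (T.le q g).L (PadicAlgCl (q : ℕ)) : (T.le q g).L →* PadicAlgCl (q : ℕ))

@[simp] theorem coe_inM (b : ((T.le q g).L)ˣ) :
    ((T.inM q g b : (PadicAlgCl (q : ℕ))ˣ) : PadicAlgCl (q : ℕ)) = ((b : (T.le q g).L) :
      PadicAlgCl (q : ℕ)) := rfl

theorem mem_Dec' {τ : PadicAlgCl (q : ℕ) ≃ₐ[ℚ_[(q : ℕ)]] PadicAlgCl (q : ℕ)} :
    τ ∈ T.Dec q g ↔ τ ∈ ((T.le q g).L).fixingSubgroup := T.mem_Dec g

theorem smul_inM (w : T.Dec q g) (b : ((T.le q g).L)ˣ) : w • T.inM q g b = T.inM q g b :=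
  Units.ext ((IntermediateField.mem_fixingSubgroup_iff _ _).1 ((T.mem_Dec' q g).1 w.2) _
    (b : (T.le q g).L).2)

/-- the local symbol relation -/
def Symw (c : H2 (T.ρw q g) (T.Lw q g)) (b : (PadicAlgCl (q : ℕ))ˣ) : Prop :=
  Sym (T.ρw q g) (T.Lw q g) (T.θw q g) (locUnits q 1 T.ξ) c b

theorem exists_symw (b : ((T.le q g).L)ˣ) :
    ∃ c : H2 (T.ρw q g) (T.Lw q g), T.Symw q g c (T.inM q g b) :=
  exists_sym (T.kdw q g) (T.ρw_apply q g) (T.θw_ker_isOpen g) (fun w => T.smul_inM q g w b)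

variable {q} (hq : q ∈ S)

include hq in
theorem symw_unique {b : (PadicAlgCl (q : ℕ))ˣ} {c c' : H2 (T.ρw q g) (T.Lw q g)}
    (hc : T.Symw q g c b) (hc' : T.Symw q g c' b) : c = c' := by
  obtain ⟨σ, hσ⟩ := T.exists_θw hq g
  refine Sym.unique (T.kdw q g) (T.ρw_apply q g) (T.h90w q g ⊤) hσ (T.θw_ker_isOpen g) hc hc'
    (y := 1) (fun v _ => smul_one v) ?_
  simp

/-- the local symbol map -/
noncomputable def symw : ((T.le q g).L)ˣ →* Multiplicative (H2 (T.ρw q g) (T.Lw q g)) where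
  toFun b := Multiplicative.ofAdd (T.exists_symw q g b).choose
  map_one' := by
    rw [← ofAdd_zero]
    congr 1
    refine T.symw_unique g hq (b := T.inM q g 1) (T.exists_symw q g 1).choose_spec ?_
    rw [map_one]
    exact Sym.zero
  map_mul' b b' := by
    rw [← ofAdd_add]
    congr 1
    refine T.symw_unique g hq (T.exists_symw q g (b * b')).choose_spec ?_
    rw [map_mul]
    exact Sym.add (T.kdw q g).pow (T.exists_symw q g b).choose_spec
      (T.exists_symw q g b').choose_spec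

theorem symw_spec (b : ((T.le q g).L)ˣ) :
    T.Symw q g (T.symw g hq b).toAdd (T.inM q g b) := (T.exists_symw q g b).choose_spec

theorem eq_symw {b : ((T.le q g).L)ˣ} {c : H2 (T.ρw q g) (T.Lw q g)}
    (hc : T.Symw q g c (T.inM q g b)) : c = (T.symw g hq b).toAdd :=
  T.symw_unique g hq hc (T.symw_spec g hq b)

theorem hζ' : IsPrimitiveRoot ((T.le q g).toL T.ξK) p :=
  T.hξK'.map_of_injective (T.le q g).toL.injective

theorem hα' : (padicEmbedding q (g (T.α : Qb))) ^ p = (((T.le q g).toL T.a : (T.le q g).L) :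
    PadicAlgCl (q : ℕ)) := by
  rw [← map_pow, ← map_pow]
  rfl

include hq in
theorem not_pow (c : (T.le q g).L) : c ^ p ≠ (T.le q g).toL T.a := by
  intro hc
  have h1 := T.hα' (q := q) g
  rw [← hc] at h1
  obtain ⟨i, hi, hi2⟩ := Kummer.eq_pow_mul_of_pow_eq (K := (T.le q g).L)
    (x := padicEmbedding q (g (T.α : Qb))) (y := ((c : (T.le q g).L) : PadicAlgCl (q : ℕ)))
    (T.hζ' g) hp.out.pos h1
  apply T.hloc q hq g
  have h2 : padicEmbedding q (g (T.α : Qb)) ∈ (T.le q g).L := by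
    rw [hi2]
    exact mul_mem (pow_mem ((T.le q g).toL T.ξK).2 i) c.2
  exact h2

/-- the norm group in terms of the local Galois group -/
theorem mem_N_iff {σ : T.Dec q g} (hσ : T.θw q g σ = Multiplicative.ofAdd 1)
    (x : ((T.le q g).L)ˣ) : x ∈ (T.le q g).N p T.a ↔
      ∃ y : (PadicAlgCl (q : ℕ))ˣ, (∀ v : T.Dec q g, T.θw q g v = 1 → v • y = y) ∧
        T.inM q g x = ∏ i ∈ Finset.range p, σ ^ i • y := by
  have h1 : (σ : PadicAlgCl (q : ℕ) ≃ₐ[ℚ_[(q : ℕ)]] PadicAlgCl (q : ℕ)) ∈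
      ((T.le q g).L).fixingSubgroup := (T.mem_Dec' q g).1 σ.2
  have h2 : (σ : PadicAlgCl (q : ℕ) ≃ₐ[ℚ_[(q : ℕ)]] PadicAlgCl (q : ℕ))
      (padicEmbedding q (g (T.α : Qb))) ≠ padicEmbedding q (g (T.α : Qb)) := by
    intro h
    have h3 : T.θw q g σ = 1 := (T.θw_eq_one_iff g σ).2 (Units.ext h)
    rw [h3, ← ofAdd_zero] at hσ
    exact zero_ne_one (Multiplicative.ofAdd.injective hσ)
  have h3 := NormGal.mem_normGrp_iff (T.le q g).L hp.out (T.hζ' g) (T.hα' g) h1 h2 x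
  rw [LocEmb.N, h3]
  refine exists_congr fun y => and_congr ?_ ?_
  · constructor
    · intro h v hv
      exact Units.ext (h v ((T.mem_Dec' q g).1 v.2)
        (congrArg Units.val ((T.θw_eq_one_iff g v).1 hv)))
    · intro h v hv hvα
      exact congrArg Units.val (h ⟨v, (T.mem_Dec' q g).2 hv⟩
        ((T.θw_eq_one_iff g _).2 (Units.ext hvα)))
  · rw [Units.ext_iff, coe_inM, Units.coe_prod]
    have h4 : ∀ i, ((σ ^ i • y : (PadicAlgCl (q : ℕ))ˣ) : PadicAlgCl (q : ℕ)) =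
        ((σ : PadicAlgCl (q : ℕ) ≃ₐ[ℚ_[(q : ℕ)]] PadicAlgCl (q : ℕ)) ^ i) y := fun i => rfl
    simp only [h4]

theorem symw_eq_one_iff (x : ((T.le q g).L)ˣ) :
    T.symw g hq x = 1 ↔ x ∈ (T.le q g).N p T.a := by
  obtain ⟨σ, hσ⟩ := T.exists_θw hq g
  rw [T.mem_N_iff g hσ]
  constructor
  · intro h
    have h1 := T.symw_spec g hq x
    rw [h, toAdd_one] at h1
    exact Sym.exists_norm (T.kdw q g) (T.ρw_apply q g) (T.h90w q g _) hσ h1
  · rintro ⟨y, hy, hxy⟩
    have h1 := Sym.eq_zero (T.kdw q g) (T.ρw_apply q g) (T.h90w q g ⊤) hσ (T.θw_ker_isOpen g)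
      (T.symw_spec g hq x) hy hxy
    rw [← ofAdd_toAdd (T.symw g hq x), h1, ofAdd_zero]

theorem symw_surjective [FiniteDimensional (ZMod p) (H2 (T.ρw q g) (T.Lw q g))]
    (h1 : finrank (ZMod p) (H2 (T.ρw q g) (T.Lw q g)) ≤ 1) :
    Function.Surjective (T.symw g hq) := by
  have hidx := (T.le q g).index_N hp.out T.hp2 T.hξK' (a := T.a) (T.not_pow g hq)
  obtain ⟨x, hx⟩ : ∃ x, x ∉ (T.le q g).N p T.a := by
    by_contra hcon
    push Not at hcon
    rw [(Subgroup.eq_top_iff' _).2 hcon, Subgroup.index_top] at hidx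
    exact hp.out.one_lt.ne hidx
  rw [← T.symw_eq_one_iff g hq] at hx
  have hx0 : (T.symw g hq x).toAdd ≠ 0 := fun h => hx (by
    rw [← ofAdd_toAdd (T.symw g hq x), h, ofAdd_zero])
  intro c
  obtain ⟨n, hn⟩ := (finrank_le_one_iff.1 h1)
  obtain ⟨s, hs⟩ := hn (T.symw g hq x).toAdd
  obtain ⟨t, ht⟩ := hn c.toAdd
  have hs0 : s ≠ 0 := by
    rintro rfl
    rw [zero_smul] at hs
    exact hx0 hs.symm
  have : NeZero p := ⟨hp.out.ne_zero⟩
  refine ⟨x ^ (t * s⁻¹).val, ?_⟩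
  rw [map_pow, ← ofAdd_toAdd (T.symw g hq x), ← ofAdd_nsmul, ← hs, ← Nat.cast_smul_eq_nsmul (ZMod p),
    ZMod.natCast_val, ZMod.cast_id', id_eq, smul_smul, inv_mul_cancel_right₀ hs0, ht, ofAdd_toAdd]

end Loc

end Twr

end Fermat.Agent.CFT.D3
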