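import Mathlib
import Fermat.Agent.CFT.D3.LocSym

/-!
# Local norms outside `S` have valuation divisible by `p` at the fixed places
-/

set_option autoImplicit false
set_option linter.unusedSectionVars false

open Pointwise NumberField IsDedekindDomain IntermediateField Module

namespace Fermat.Agent.CFT.D3

open LC Fermat.Agent.CFT.Hasse ExtCitation PT NormGrp

local notation "Qb" => AlgebraicClosure ℚ
local notation "GQ" => (AlgebraicClosure ℚ ≃ₐ[ℚ] AlgebraicClosure ℚ)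

namespace Twr

variable {p : ℕ} [hp : Fact p.Prime] {S : Finset Nat.Primes} (T : Twr p S)

/-- the inclusion `Kˣ → Fˣ` -/
noncomputable def incKF : T.Kˣ →* T.Fˣ :=
  Units.map (IntermediateField.inclusion T.hKF : T.K →* T.F)

@[simp] theorem coe_incKF (y : T.Kˣ) : (((T.incKF y : T.Fˣ) : T.F) : Qb) = ((y : T.K) : Qb) := rfl

theorem hFn' : T.F.fixingSubgroup.Normal := T.hFn.normal_fixingSubgroup

theorem dvd_ordZ {σ : T.U} (hσ : T.θ σ = Multiplicative.ofAdd 1) (y : T.Kˣ)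
    (hy : ∀ e' : LocEmb T.K, (∀ q ∈ S, (((q : Nat.Primes) : ℕ) : 𝓞 T.K) ∉ e'.v.asIdeal) →
      e'.toU y ∈ e'.N p T.a)
    {v : HeightOneSpectrum (𝓞 T.F)} (hv : v ∉ placesAbove S T.F)
    (hfix : act (resF T.hFn' (σ : GQ)) v = v) : (p : ℤ) ∣ ordZ v (T.incKF y : T.F) := by
  obtain ⟨q, hqv⟩ := W.exists_prime_mem v
  have hqS : q ∉ S := fun h => hv ⟨q, h, hqv⟩
  obtain ⟨g, hg⟩ := W.exists_pl_emb_eq q T.F v hqv
  set eF : LocEmb T.F := ⟨(q : ℕ), W.emb q T.F g⟩ with heF
  have heFv : eF.v = v := hg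
  -- the place below is outside `S`
  have hmem := hy (T.le q g) (fun q' hq' h => by
    have h1 : ((q : ℕ) : 𝓞 T.K) ∈ (T.le q g).v.asIdeal := (T.le q g).natCast_mem_v
    have hne : (q : ℕ) ≠ q' := by
      intro he
      apply hqS
      have : q = q' := Subtype.ext he
      rwa [this]
    exact natCast_coprime_contra (T.le q g).v.isPrime.ne_top
      ((Nat.coprime_primes q.2 q'.2).mpr hne) h1 h)
  -- the local automorphism
  have hpl : W.pl (W.emb q T.F g) = W.pl (W.emb q T.F (g * σ)) := by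
    apply HeightOneSpectrum.ext
    ext x
    have h1 : W.emb q T.F (g * σ) (x : T.F) =
        W.emb q T.F g (resF T.hFn' (σ : GQ) (x : T.F)) := rfl
    rw [W.mem_pl (W.emb q T.F (g * σ)), h1]
    have h2 : (x ∈ (W.pl (W.emb q T.F g)).asIdeal) ↔
        RingOfIntegers.mapRingEquiv (resF T.hFn' (σ : GQ)) x ∈ (W.pl (W.emb q T.F g)).asIdeal := by
      rw [hg]
      conv_rhs => rw [← hfix]
      rw [mem_act, RingEquiv.symm_apply_apply]
    rw [h2, W.mem_pl]
    rfl
  obtain ⟨τ, hτ⟩ := W.exists_conj_of_norm_eq _ _ (W.norm_eq_of_pl_eq hpl)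
  have hτK : τ ∈ ((T.le q g).L).fixingSubgroup := by
    show τ ∈ (IntermediateField.adjoin ℚ_[(q : ℕ)] (Set.range (W.emb q T.K g))).fixingSubgroup
    rw [mem_fixingSubgroup_adjoin_iff]
    rintro _ ⟨x, rfl⟩
    have h1 := hτ (IntermediateField.inclusion T.hKF x)
    have h2 : W.emb q T.F g (IntermediateField.inclusion T.hKF x) = W.emb q T.K g x := rfl
    rw [h2] at h1
    rw [h1]
    show padicEmbedding q (g ((σ : GQ) (x : Qb))) = padicEmbedding q (g (x : Qb))
    rw [(IntermediateField.mem_fixingSubgroup_iff _ _).1 σ.2 (x : Qb) x.2]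
  have hσα : (σ : GQ) (T.α : Qb) = (T.ξ : Qb) * (T.α : Qb) := by
    have h1 := congrArg Units.val (T.θ_spec σ)
    rw [hσ] at h1
    have h2 : zp T.ξ (Multiplicative.toAdd (Multiplicative.ofAdd (1 : ZMod p))) = T.ξ := by
      rw [toAdd_ofAdd]
      have := zp_natCast T.kd.pow 1
      rwa [Nat.cast_one, pow_one] at this
    rw [h2] at h1
    exact h1
  have hτα : τ (padicEmbedding q (g (T.α : Qb))) ≠ padicEmbedding q (g (T.α : Qb)) := by
    have h1 := hτ ⟨(T.α : Qb), T.hαF⟩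
    have h2 : W.emb q T.F g ⟨(T.α : Qb), T.hαF⟩ = padicEmbedding q (g (T.α : Qb)) := rfl
    have h3 : W.emb q T.F (g * σ) ⟨(T.α : Qb), T.hαF⟩ =
      padicEmbedding q (g ((σ : GQ) (T.α : Qb))) := rfl
    rw [h2, h3] at h1
    rw [h1]
    intro h4
    have h5 := g.injective ((padicEmbedding q).injective h4)
    rw [hσα] at h5
    have h6 : (T.ξ : Qb) = 1 := by
      have := mul_right_cancel₀ T.α.ne_zero (h5.trans (one_mul _).symm)
      exact this
    have h7 : T.ξ = 1 := Units.ext h6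
    have h8 := T.hξ
    rw [h7] at h8
    exact hp.out.one_lt.ne' (h8.unique IsPrimitiveRoot.one)
  -- the norm equation
  obtain ⟨b, hb, hyb⟩ := (NormGal.mem_normGrp_iff (T.le q g).L hp.out (T.hζ' g) (T.hα' g) hτK hτα
    _).1 hmem
  have hnorm : ‖W.emb q T.F g (T.incKF y : T.F)‖ = ‖(b : PadicAlgCl (q : ℕ))‖ ^ p := by
    have h1 : W.emb q T.F g (T.incKF y : T.F) =
      (((T.le q g).toU y : (T.le q g).L) : PadicAlgCl (q : ℕ)) := rfl
    rw [h1, hyb, norm_prod]
    have h2 : ∀ j, ‖(τ ^ j) (b : PadicAlgCl (q : ℕ))‖ = ‖(b : PadicAlgCl (q : ℕ))‖ :=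
      fun j => Embed.norm_algEquiv_apply _ _ _
    simp only [h2, Finset.prod_const, Finset.card_range]
  -- `b` lies in the local field of `F`
  have hbF : (b : PadicAlgCl (q : ℕ)) ∈ eF.L := by
    apply NormGal.mem_of_fixed
    intro v hv
    rw [IntermediateField.mem_fixingSubgroup_iff] at hv
    refine hb v ?_ (hv _ (IntermediateField.subset_adjoin _ _ ⟨⟨(T.α : Qb), T.hαF⟩, rfl⟩))
    show v ∈ (IntermediateField.adjoin ℚ_[(q : ℕ)] (Set.range (W.emb q T.K g))).fixingSubgroup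
    rw [mem_fixingSubgroup_adjoin_iff]
    rintro _ ⟨x, rfl⟩
    exact hv _ (IntermediateField.subset_adjoin _ _ ⟨IntermediateField.inclusion T.hKF x, rfl⟩)
  obtain ⟨x, hx0, hx⟩ := eF.exists_norm_eq (y := ⟨(b : PadicAlgCl (q : ℕ)), hbF⟩)
    (fun h => b.ne_zero (congrArg Subtype.val h))
  have hval : v.valuation T.F (T.incKF y : T.F) = v.valuation T.F (x ^ p) := by
    rw [← heFv, eF.valuation_eq_iff, map_pow, norm_pow, hx]
    exact hnorm
  refine ⟨ordZ v x, ?_⟩
  rw [ordZ, hval, map_pow, WithZero.log_pow, nsmul_eq_mul]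
  rfl

end Twr

end Fermat.Agent.CFT.D3
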