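import Mathlib
import Fermat.Agent.CFT.D3.DvdOrd

/-!
# Global classes with prescribed localisations
-/

set_option autoImplicit false
set_option linter.unusedSectionVars false

open Pointwise NumberField IsDedekindDomain IntermediateField Module

namespace Fermat.Agent.CFT.D3

open LC Fermat.Agent.CFT.Hasse ExtCitation PT NormGrp

local notation "Qb" => AlgebraicClosure ℚ
local notation "GQ" => (AlgebraicClosure ℚ ≃ₐ[ℚ] AlgebraicClosure ℚ)

/-- A `p`-torsion multiplicative cocycle comes from `μ`; version with a coarser level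
structure. -/
theorem exists_z2' {p : ℕ} [hp : Fact p.Prime] {G : Type*} [Group G] {L L' : Lvl G}
    {χc : G →* (ZMod p)ˣ} {A : Type*} [CommGroup A] [MulDistribMulAction G A] {ζ : A}
    (K : KData p L' χc A ζ)
    {u : G × G → A} (hu : IsCoc u) (hul : IsLC₂ L u) (hup : ∀ x, u x ^ p = 1) :
    ∃ z : G × G → ZMod p, IsLC₂ L z ∧ (∀ x, zp ζ (z x) = u x) ∧
      ∀ g h j, z (g * h, j) + z (g, h) = (χc g : ZMod p) * z (h, j) + z (g, h * j) := by
  classical
  choose c hc using fun x : {x : A // x ^ p = 1} => K.tors x x.2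
  refine ⟨fun x => c ⟨u x, hup x⟩, ?_, fun x => hc _, ?_⟩
  · obtain ⟨N, hN, h2⟩ := hul
    refine ⟨N, hN, fun g g' s hs s' hs' => ?_⟩
    have h3 : (⟨u (g * s, g' * s'), hup _⟩ : {x : A // x ^ p = 1}) = ⟨u (g, g'), hup _⟩ :=
      Subtype.ext (h2 g g' s hs s' hs')
    exact congrArg c h3
  · intro g h j
    apply K.zp_injective
    rw [zp_add K.pow, zp_add K.pow, ← K.smul_zp, hc, hc, hc, hc]
    exact hu g h j

namespace Twr

variable {p : ℕ} [hp : Fact p.Prime] {S : Finset Nat.Primes} (T : Twr p S)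

/-- the Kummer datum of `U` -/
theorem kdU : KData p ((krull ℚ Qb).restrict T.U) ((cycloChar p).comp T.U.subtype) Qbˣ T.ξ :=
  kdata_restrict T.kd T.U

/-- the coefficients over `U` -/
noncomputable abbrev ρU : Representation (ZMod p) T.U (ZMod p) :=
  (mu (cycloChar p)).comp T.U.subtype

/-- the levels of `U` -/
noncomputable abbrev LU : Lvl T.U := (unram S).restrict T.U

/-- `Kˣ → Q̄ˣ` -/
noncomputable def incK : T.Kˣ →* Qbˣ := Units.map (algebraMap T.K Qb : T.K →* Qb)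

@[simp] theorem coe_incK (y : T.Kˣ) : ((T.incK y : Qbˣ) : Qb) = ((y : T.K) : Qb) := rfl

theorem smul_incK (u : T.U) (y : T.Kˣ) : u • T.incK y = T.incK y :=
  Units.ext ((IntermediateField.mem_fixingSubgroup_iff _ _).1 u.2 _ (y : T.K).2)

theorem exists_class (y : T.Kˣ)
    (hy : ∀ e' : LocEmb T.K, (∀ q ∈ S, (((q : Nat.Primes) : ℕ) : 𝓞 T.K) ∉ e'.v.asIdeal) →
      e'.toU y ∈ e'.N p T.a) :
    ∃ m : ℕ, m.Coprime p ∧ ∃ c : LC.H2 T.ρU T.LU, Sym T.ρU T.LU T.θ T.ξ c (T.incK y ^ m) := by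
  have hNZ : NeZero p := ⟨hp.out.ne_zero⟩
  obtain ⟨σ, hσ⟩ := T.exists_σ
  obtain ⟨m, hm, b, hb, hz, hzp⟩ := exists_descent hp.out T.hpS T.U_isOpen T.F T.hF T.hFn' T.θ
    T.θ_eq_one_iff' hσ (T.incKF y) (fun u => congrArg Units.val (T.smul_incK u y))
    (fun v hv hfix => T.dvd_ordZ hσ y hy hv hfix)
  refine ⟨m, hm, ?_⟩
  have hinc : Units.map (algebraMap T.F Qb).toMonoidHom (T.incKF y) = T.incK y := rfl
  rw [hinc] at hz hzp
  have hinv : ∀ u : T.U, u • (T.incK y ^ m) = T.incK y ^ m := fun u => by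
    rw [smul_pow', T.smul_incK]
  have hcoc : IsCoc (cyc T.θ (T.incK y ^ m) / mdiff b) := (isCoc_cyc hinv).div (isCoc_mdiff b)
  obtain ⟨z, hz1, hz2, hz3⟩ := exists_z2' T.kdU hcoc hz (fun x => congrFun hzp x)
  refine ⟨H2.mk T.ρU T.LU ⟨z, ?_⟩, ⟨z, ?_⟩, rfl, b⁻¹, hb.comp fun t => t⁻¹, fun x => ?_⟩
  · rw [mem_Z2]
    refine ⟨fun g h j => ?_, hz1⟩
    show _ = mu (cycloChar p) (g : GQ) (z (h, j)) + _
    rw [mu_apply]
    exact hz3 g h j
  · rw [mem_Z2]
    refine ⟨fun g h j => ?_, hz1⟩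
    show _ = mu (cycloChar p) (g : GQ) (z (h, j)) + _
    rw [mu_apply]
    exact hz3 g h j
  · show zp T.ξ (z x) = _
    rw [hz2, mdiff_inv, Pi.div_apply, Pi.inv_apply, div_eq_mul_inv]

/-- The localisation morphism at `(q, g)`. -/
noncomputable def locMor (q : Nat.Primes) (g : GQ) : Mor T.ρU T.LU (T.ρw q g) (T.Lw q g) where
  f := T.fw q g
  φ := mu (cycloChar p) g
  cont := T.cont_fw g
  comm h v := by
    show mu (cycloChar p) g (mu (cycloChar p) (T.fw q g h : GQ) v) =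
      mu (cycloChar p) (localGaloisToGlobal (q : ℕ) h) (mu (cycloChar p) g v)
    rw [← Module.End.mul_apply, ← Module.End.mul_apply, ← map_mul, ← map_mul, coe_fw,
      locConj_apply]
    congr 2
    group

theorem locUnits_ξ (q : Nat.Primes) (g : GQ) (c : ZMod p) :
    locUnits (q : ℕ) g (zp T.ξ c) = zp (locUnits (q : ℕ) 1 T.ξ) (mu (cycloChar p) g c) := by
  rw [mu_apply, ← map_zp, ← T.kd.smul_zp]
  rfl

/-- **The global class.** -/
theorem exists_global (y : T.Kˣ)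
    (hy : ∀ e' : LocEmb T.K, (∀ q ∈ S, (((q : Nat.Primes) : ℕ) : 𝓞 T.K) ∉ e'.v.asIdeal) →
      e'.toU y ∈ e'.N p T.a) :
    ∃ c : LC.H2 T.ρU T.LU, ∀ (q : Nat.Primes) (hq : q ∈ S) (g : GQ),
      (T.locMor q g).H2 c = (T.symw g hq ((T.le q g).toU y)).toAdd := by
  obtain ⟨m, hm, c, hc⟩ := T.exists_class y hy
  have hNZ : NeZero p := ⟨hp.out.ne_zero⟩
  have hm0 : (m : ZMod p) ≠ 0 := by
    rw [Ne, ZMod.natCast_eq_zero_iff]
    intro h
    have h1 := Nat.Coprime.symm hm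
    rw [hp.out.coprime_iff_not_dvd] at h1
    exact h1 h
  refine ⟨(m : ZMod p)⁻¹ • c, fun q hq g => ?_⟩
  have h1 : Sym (T.ρw q g) (T.Lw q g) (T.θ.comp (T.locMor q g).f) (locUnits (q : ℕ) 1 T.ξ)
      ((T.locMor q g).H2 c) (locUnits (q : ℕ) g (T.incK y ^ m)) :=
    Sym.map (T.locMor q g) (locUnits (q : ℕ) g) (fun w x => T.locUnits_fw_smul g w x)
      (fun c => T.locUnits_ξ q g c) hc
  have h2 : locUnits (q : ℕ) g (T.incK y ^ m) = T.inM q g ((T.le q g).toU y ^ m) := by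
    rw [map_pow, map_pow]
    rfl
  rw [h2] at h1
  have h3 : (T.locMor q g).H2 c = (T.symw g hq ((T.le q g).toU y ^ m)).toAdd :=
    T.eq_symw g hq h1
  rw [map_smul, h3, map_pow, toAdd_pow, ← Nat.cast_smul_eq_nsmul (ZMod p), smul_smul,
    inv_mul_cancel₀ hm0, one_smul]

end Twr

end Fermat.Agent.CFT.D3
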