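import Mathlib
import Fermat.Agent.CFT.D3.GlobLoc
import Fermat.Agent.CFT.HasseNorm
import Fermat.Agent.CFT.LD.Padic
import Fermat.Agent.CFT.PT.Inputs

/-!
# The cokernel of localisation on `H²(Fun(G/N', μ))` (piece D3)
-/

set_option autoImplicit false
set_option linter.unusedSectionVars false

open Pointwise NumberField IsDedekindDomain IntermediateField Module

namespace Fermat.Agent.CFT.D3

open LC Fermat.Agent.CFT.Hasse ExtCitation PT NormGrp HasseNorm

local notation "Qb" => AlgebraicClosure ℚ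
local notation "GQ" => (AlgebraicClosure ℚ ≃ₐ[ℚ] AlgebraicClosure ℚ)

/-- the local levels -/
noncomputable abbrev Lq (q : Nat.Primes) :
    Lvl (PadicAlgCl (q : ℕ) ≃ₐ[ℚ_[(q : ℕ)]] PadicAlgCl (q : ℕ)) :=
  lvlOver (localGaloisToGlobal (q : ℕ))

theorem cont_Lq (S : Finset Nat.Primes) (q : Nat.Primes) :
    (Lq q).Cont (unram S) (localGaloisToGlobal (q : ℕ)) := cont_lvlOver_unram S _

namespace Twr

variable {p : ℕ} [hp : Fact p.Prime] {S : Finset Nat.Primes} (T : Twr p S)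

section Dim

variable {q : Nat.Primes} (hq : q ∈ S) (g : GQ)

theorem Dec_isOpen : (Lq q).IsOpen (T.Dec q g) := by
  refine ⟨_, ⟨T.U, ⟨T.K, T.hK.1, T.hKn, rfl⟩, rfl⟩, fun τ hτ => ?_⟩
  rw [T.mem_Dec_iff g, locConj_apply]
  have h1 := T.hKn.normal_fixingSubgroup.conj_mem _
    (show localGaloisToGlobal (q : ℕ) τ ∈ T.U from hτ) g⁻¹
  rwa [inv_inv] at h1

include hq in
theorem θw_ne_one : T.θw q g ≠ 1 := by
  obtain ⟨σ, hσ⟩ := T.exists_θw hq g
  intro h
  rw [h, MonoidHom.one_apply, ← ofAdd_zero] at hσ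
  exact zero_ne_one (Multiplicative.ofAdd.injective hσ)

include hq in
theorem finrank_H2w : finrank (ZMod p) (LC.H2 (T.ρw q g) (T.Lw q g)) = 1 := by
  have F := (Local.formPadic (q : ℕ) p T.hp2).restrict (T.Dec_isOpen (q := q) g)
  exact F.finrank_H2_mu (F.exists_ne_of_hom (T.θw_ker_isOpen g) (T.θw_ne_one hq g))

end Dim

/-- the induced module -/
noncomputable abbrev ρg : Representation (ZMod p) GQ ((GQ ⧸ T.U) → ZMod p) :=
  funRep (permQ T.U) (mu (cycloChar p))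

section Mackey

variable (q : Nat.Primes) (g : GQ)

/-- the local Shapiro morphism at `g` -/
noncomputable def shw : Mor (T.ρg.comp (localGaloisToGlobal (q : ℕ))) (Lq q) (T.ρw q g)
    (T.Lw q g) :=
  shMor (W.permLoc (q : ℕ) T.K) ((mu (cycloChar p)).comp (localGaloisToGlobal (q : ℕ))) (Lq q)
    (QuotientGroup.mk g)

theorem shw_res (z : LC.H2 T.ρg (unram S)) :
    (T.shw q g).H2 ((Mor.res T.ρg (localGaloisToGlobal (q : ℕ)) (cont_Lq S q)).H2 z) =
      (T.locMor q g).H2 ((shQ (mu (cycloChar p)) (unram S) T.U).H2 z) := by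
  rw [← Mor.H2_comp, ← Mor.H2_comp]
  conv_lhs => rw [← Mor.conj_H2 (ρ := T.ρg) (L := unram S) g z]
  rw [← Mor.H2_comp]
  have key : ((T.shw q g).comp (Mor.res T.ρg (localGaloisToGlobal (q : ℕ)) (cont_Lq S q))).comp
      (Mor.conj T.ρg (unram S) g) = (T.locMor q g).comp (shQ (mu (cycloChar p)) (unram S) T.U) := by
    refine Mor.ext' rfl ?_
    refine LinearMap.ext fun x => ?_
    show mu (cycloChar p) g (x ((permQ T.U g)⁻¹ (QuotientGroup.mk g))) =
      mu (cycloChar p) g (x ((1 : GQ) : GQ ⧸ T.U))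
    congr 2
    rw [Equiv.Perm.inv_eq_iff_eq]
    show (QuotientGroup.mk g : GQ ⧸ T.U) = g • ((1 : GQ) : GQ ⧸ T.U)
    rw [MulAction.Quotient.smul_coe, smul_eq_mul, mul_one]
  rw [key]
  rfl

theorem permLoc_ker_isOpen : (Lq q).IsOpen (W.permLoc (q : ℕ) T.K).ker := by
  have h1 : (krull ℚ Qb).IsOpen T.U := ⟨T.U, ⟨T.K, T.hK.1, T.hKn, rfl⟩, le_rfl⟩
  obtain ⟨N, hN, hle⟩ := isOpen_ker_quotPerm h1
  exact ⟨_, ⟨N, hN, rfl⟩, fun τ hτ => hle hτ⟩

noncomputable instance fintypeAbove : Fintype (W.Above (q : ℕ) T.K) := Fintype.ofFinite _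

/-- Mackey's formula at `q` -/
noncomputable def mck : LC.H2 (T.ρg.comp (localGaloisToGlobal (q : ℕ))) (Lq q) ≃ₗ[ZMod p]
    ∀ ω : W.Above (q : ℕ) T.K, LC.H2 (T.ρw q (W.repG (q : ℕ) T.K ω))
      (T.Lw q (W.repG (q : ℕ) T.K ω)) :=
  (W.orbitsAbove (q : ℕ) T.K).mackey2
    ((mu (cycloChar p)).comp (localGaloisToGlobal (q : ℕ))) (T.permLoc_ker_isOpen q)

theorem mck_apply (x : LC.H2 (T.ρg.comp (localGaloisToGlobal (q : ℕ))) (Lq q))
    (ω : W.Above (q : ℕ) T.K) : T.mck q x ω = (T.shw q (W.repG (q : ℕ) T.K ω)).H2 x := rfl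

end Mackey

section Assembly

/-- the places above `S` -/
abbrev Idx : Type := Σ v : S, W.Above ((v : Nat.Primes) : ℕ) T.K

/-- the embeddings -/
noncomputable def eS (i : T.Idx) : LocEmb T.K := T.le i.1 (W.repG ((i.1 : Nat.Primes) : ℕ) T.K i.2)

theorem eS_v (i : T.Idx) : (T.eS i).v = i.2.1 :=
  congrArg Subtype.val (W.placeEmb_repG ((i.1 : Nat.Primes) : ℕ) T.K i.2)

theorem eS_injective : Function.Injective fun i => (T.eS i).v := by
  rintro ⟨v, ω⟩ ⟨v', ω'⟩ h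
  simp only [eS_v] at h
  have h1 : ((v : Nat.Primes) : ℕ) = ((v' : Nat.Primes) : ℕ) := by
    refine W.prime_unique (v : Nat.Primes).2 (v' : Nat.Primes).2 ω.2 ?_
    have := ω'.2
    rwa [← h] at this
  have h2 : v = v' := Subtype.ext (Subtype.ext h1)
  subst h2
  rw [Subtype.ext h]

/-- The symbol map on the product of the local fields. -/
noncomputable def Θ : (∀ i : T.Idx, ((T.eS i).L)ˣ) →*
    Multiplicative (∀ v : S, LC.H2 (T.ρg.comp (localGaloisToGlobal ((v : Nat.Primes) : ℕ)))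
      (Lq v)) where
  toFun b := Multiplicative.ofAdd fun v => (T.mck v).symm fun ω =>
    (T.symw (W.repG ((v : Nat.Primes) : ℕ) T.K ω) v.2 (b ⟨v, ω⟩)).toAdd
  map_one' := by
    rw [← ofAdd_zero]
    congr 1
    funext v
    rw [LinearEquiv.symm_apply_eq, Pi.zero_apply, map_zero]
    funext ω
    exact congrArg Multiplicative.toAdd
      (map_one (T.symw (W.repG ((v : Nat.Primes) : ℕ) T.K ω) v.2))
  map_mul' b b' := by
    rw [← ofAdd_add]
    congr 1
    funext v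
    rw [LinearEquiv.symm_apply_eq, Pi.add_apply, map_add, LinearEquiv.apply_symm_apply,
      LinearEquiv.apply_symm_apply]
    funext ω
    exact congrArg Multiplicative.toAdd
      (map_mul (T.symw (W.repG ((v : Nat.Primes) : ℕ) T.K ω) v.2) (b ⟨v, ω⟩) (b' ⟨v, ω⟩))

theorem mck_Θ (b : ∀ i : T.Idx, ((T.eS i).L)ˣ) (v : S) (ω : W.Above ((v : Nat.Primes) : ℕ) T.K) :
    T.mck v ((T.Θ b).toAdd v) ω =
      (T.symw (W.repG ((v : Nat.Primes) : ℕ) T.K ω) v.2 (b ⟨v, ω⟩)).toAdd := by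
  show T.mck v ((T.mck v).symm _) ω = _
  rw [LinearEquiv.apply_symm_apply]

theorem Θ_surjective : Function.Surjective T.Θ := by
  intro t
  have h : ∀ i : T.Idx, ∃ b : ((T.eS i).L)ˣ,
      T.symw (W.repG ((i.1 : Nat.Primes) : ℕ) T.K i.2) i.1.2 b =
        Multiplicative.ofAdd (T.mck i.1 (t.toAdd i.1) i.2) := by
    intro i
    have h1 := T.finrank_H2w i.1.2 (W.repG ((i.1 : Nat.Primes) : ℕ) T.K i.2)
    have := FiniteDimensional.of_finrank_eq_succ h1
    exact T.symw_surjective _ i.1.2 h1.le _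
  choose b hb using h
  refine ⟨b, ?_⟩
  apply Multiplicative.toAdd.injective
  funext v
  apply (T.mck v).injective
  funext ω
  rw [mck_Θ, hb ⟨v, ω⟩]
  rfl

theorem Θ_mem {b : ∀ i : T.Idx, ((T.eS i).L)ˣ} (hb : b ∈ globNorm p T.a T.eS) :
    (T.Θ b).toAdd ∈ LinearMap.range (loc2 (unram S) (fun v : S => Lq v)
      (fun v : S => localGaloisToGlobal ((v : Nat.Primes) : ℕ)) (fun v : S => cont_Lq S v)
      T.ρg) := by
  obtain ⟨y, hy1, hy2⟩ := hb
  obtain ⟨c, hc⟩ := T.exists_global y (fun e' he' => hy2 e' fun i h => by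
    refine he' i.1 i.1.2 ?_
    rw [← h, eS_v]
    exact i.2.2)
  obtain ⟨z, hz⟩ := (shapiroQ2 (mu (cycloChar p)) T.U_isOpen).surjective c
  rw [shapiroQ2_apply] at hz
  refine ⟨z, ?_⟩
  funext v
  apply (T.mck v).injective
  funext ω
  rw [mck_Θ, loc2_apply, mck_apply]
  have h1 := T.shw_res v (W.repG ((v : Nat.Primes) : ℕ) T.K ω) z
  refine h1.trans ?_
  rw [hz, hc v v.2]
  congr 1
  have h2 := (T.symw_eq_one_iff (W.repG ((v : Nat.Primes) : ℕ) T.K ω) v.2 _).2 (hy1 ⟨v, ω⟩)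
  have h3 := (map_div (T.symw (W.repG ((v : Nat.Primes) : ℕ) T.K ω) v.2)
    ((T.le v (W.repG ((v : Nat.Primes) : ℕ) T.K ω)).toU y) (b ⟨v, ω⟩)).symm.trans h2
  exact div_eq_one.1 h3

end Assembly

theorem U_le_ker : T.U ≤ (cycloChar p).ker := by
  intro u hu
  rw [MonoidHom.mem_ker]
  have h1 := T.kd.act u
  rw [T.smul_ξ hu] at h1
  have h2 : zp T.ξ (1 : ZMod p) = T.ξ := by
    have := zp_natCast T.kd.pow 1
    rwa [Nat.cast_one, pow_one] at this
  rw [← h2] at h1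
  have h3 : zp T.ξ ((cycloChar p u : (ZMod p)ˣ) : ZMod p) = zp T.ξ (1 : ZMod p) := by
    conv_rhs => rw [h1]
    rw [h2]
  exact Units.ext (T.kd.zp_injective h3)

end Twr

end Fermat.Agent.CFT.D3
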