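import Mathlib
import Fermat.Agent.CFT.PT.Inputs

/-!
# The counting argument in the setting of `HG2`
-/

set_option autoImplicit false
set_option linter.unusedSectionVars false

namespace Fermat.Agent.CFT.D3

open Fermat.Agent.CFT.LC Fermat.Agent.CFT.PT Module

theorem finrank_le_of_index' {k : Type*} [Field k] [Finite k] {T : Type*} [AddCommGroup T]
    [Module k T] [FiniteDimensional k T] (R : Submodule k T)
    {P : Type*} [CommGroup P] (Θ : P →* Multiplicative T) (hΘ : Function.Surjective Θ)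
    (H : Subgroup P) (h0 : H.index ≠ 0) (hH : H.index ≤ Nat.card k)
    (hR : ∀ b ∈ H, Multiplicative.toAdd (Θ b) ∈ R) :
    finrank k T ≤ finrank k R + 1 := by
  let f : P →* Multiplicative (T ⧸ R) :=
    (AddMonoidHom.toMultiplicative (R.mkQ.toAddMonoidHom)).comp Θ
  have hf : Function.Surjective f := by
    intro t
    obtain ⟨t', ht'⟩ := R.mkQ_surjective (Multiplicative.toAdd t)
    obtain ⟨b, hb⟩ := hΘ (Multiplicative.ofAdd t')
    refine ⟨b, ?_⟩
    show AddMonoidHom.toMultiplicative (R.mkQ.toAddMonoidHom) (Θ b) = t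
    rw [hb]
    exact ht'
  have hHker : H ≤ f.ker := by
    intro b hb
    rw [MonoidHom.mem_ker]
    show Multiplicative.ofAdd (R.mkQ (Multiplicative.toAdd (Θ b))) = 1
    rw [Submodule.mkQ_apply, (Submodule.Quotient.mk_eq_zero R).mpr (hR b hb), ofAdd_zero]
  have h1 : f.ker.index ≤ Nat.card k := by
    have h2 := Subgroup.index_dvd_of_le hHker
    exact (Nat.le_of_dvd (Nat.pos_of_ne_zero h0) h2).trans hH
  have h2 : f.ker.index = Nat.card (T ⧸ R) := by
    rw [Subgroup.index_ker, MonoidHom.range_eq_top.mpr hf]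
    rw [Subgroup.card_top]
    rfl
  have h3 : Nat.card (T ⧸ R) = Nat.card k ^ finrank k (T ⧸ R) :=
    Module.natCard_eq_pow_finrank (K := k) (V := T ⧸ R)
  have hk1 : 1 < Nat.card k := Finite.one_lt_card
  have h4 : finrank k (T ⧸ R) ≤ 1 := by
    rw [h2, h3] at h1
    by_contra hcon
    push Not at hcon
    have h5 : Nat.card k ^ 2 ≤ Nat.card k ^ finrank k (T ⧸ R) :=
      Nat.pow_le_pow_right (by omega) hcon
    have h6 : Nat.card k < Nat.card k ^ 2 := by nlinarith
    omega
  have h5 := Submodule.finrank_quotient_add_finrank R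
  omega

/-- version without groups -/
theorem finrank_le_of_index_fun {k : Type*} [Field k] [Finite k] {T : Type*} [AddCommMonoid T]
    [Module k T] [Module.Finite k T] (R : Submodule k T)
    {P : Type*} [CommGroup P] (Θ : P → T) (hmul : ∀ a b, Θ (a * b) = Θ a + Θ b)
    (hΘ : Function.Surjective Θ)
    (H : Subgroup P) (h0 : H.index ≠ 0) (hH : H.index ≤ Nat.card k)
    (hR : ∀ b ∈ H, Θ b ∈ R) :
    finrank k T ≤ finrank k R + 1 := by
  let inst : AddCommGroup T := Module.addCommMonoidToAddCommGroup k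
  have h1 : Θ 1 = 0 := by
    have h2 := hmul 1 1
    rw [mul_one] at h2
    exact (left_eq_add.1 h2)
  let Θ' : P →* Multiplicative T :=
    { toFun := fun b => Multiplicative.ofAdd (Θ b)
      map_one' := congrArg Multiplicative.ofAdd h1
      map_mul' := fun a b => congrArg Multiplicative.ofAdd (hmul a b) }
  exact finrank_le_of_index' R Θ' (fun t => by
    obtain ⟨b, hb⟩ := hΘ t.toAdd
    exact ⟨b, congrArg Multiplicative.ofAdd hb⟩) H h0 hH hR

variable {k : Type} [Field k] {G : Type} [Group G] (L : Lvl G) (χ : G →* kˣ)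
  {ι : Type} [Fintype ι] {Γ : ι → Type} [∀ v, Group (Γ v)] (LΓ : ∀ v, Lvl (Γ v))
  (r : ∀ v, Γ v →* G) (hr : ∀ v, (LΓ v).Cont L (r v))

/-- The counting argument. -/
theorem hg2_count [Finite k] (N' : Subgroup G)
    (hfin : ∀ v, Module.Finite k (LC.H2 ((funRep (permQ N') (mu χ)).comp (r v)) (LΓ v)))
    {P : Type*} [CommGroup P]
    (Θ : P → (∀ v, LC.H2 ((funRep (permQ N') (mu χ)).comp (r v)) (LΓ v)))
    (hmul : ∀ a b v, Θ (a * b) v = Θ a v + Θ b v)
    (hΘ : Function.Surjective Θ)
    (H : Subgroup P) (h0 : H.index ≠ 0) (hH : H.index ≤ Nat.card k)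
    (hR : ∀ b ∈ H, ∃ z : LC.H2 (funRep (permQ N') (mu χ)) L,
      ∀ v, (Mor.res (funRep (permQ N') (mu χ)) (r v) (hr v)).H2 z = Θ b v) :
    finrank k (∀ v, LC.H2 ((funRep (permQ N') (mu χ)).comp (r v)) (LΓ v)) ≤
      finrank k (LinearMap.range (loc2 L LΓ r hr (funRep (permQ N') (mu χ)))) + 1 := by
  refine finrank_le_of_index_fun (k := k)
    (LinearMap.range (loc2 L LΓ r hr (funRep (permQ N') (mu χ)))) Θ (fun a b => funext (hmul a b))
    hΘ H h0 hH fun b hb => ?_
  obtain ⟨z, hz⟩ := hR b hb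
  exact ⟨z, funext hz⟩

end Fermat.Agent.CFT.D3
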