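import Mathlib
import Fermat.Agent.CFT.D3.Assembly
import Fermat.Agent.CFT.D3.Count
import Fermat.Agent.CFT.LC.Frozen

/-!
# The cokernel of localisation on `H²(Fun(G/N', μ))` (piece D3): final statement
-/

set_option autoImplicit false
set_option linter.unusedSectionVars false

open Pointwise NumberField IsDedekindDomain IntermediateField Module

namespace Fermat.Agent.CFT.D3

open LC Fermat.Agent.CFT.Hasse ExtCitation PT NormGrp HasseNorm

local notation "Qb" => AlgebraicClosure ℚ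
local notation "GQ" => (AlgebraicClosure ℚ ≃ₐ[ℚ] AlgebraicClosure ℚ)

namespace Twr

variable {p : ℕ} [hp : Fact p.Prime] {S : Finset Nat.Primes} (T : Twr p S)

theorem finite_Tq (v : S) : Module.Finite (ZMod p)
    (LC.H2 (T.ρg.comp (localGaloisToGlobal ((v : Nat.Primes) : ℕ))) (Lq v)) := by
  have h3 : ∀ ω : W.Above ((v : Nat.Primes) : ℕ) T.K, Module.Finite (ZMod p)
      (LC.H2 (T.ρw v (W.repG ((v : Nat.Primes) : ℕ) T.K ω))
        (T.Lw v (W.repG ((v : Nat.Primes) : ℕ) T.K ω))) := fun ω =>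
    FiniteDimensional.of_finrank_eq_succ (T.finrank_H2w v.2 _)
  exact Module.Finite.equiv (T.mck v).symm

theorem exists_loc {b : ∀ i : T.Idx, ((T.eS i).L)ˣ} (hb : b ∈ globNorm p T.a T.eS) :
    ∃ z : LC.H2 T.ρg (unram S), ∀ v : S,
      (Mor.res T.ρg (localGaloisToGlobal ((v : Nat.Primes) : ℕ)) (cont_Lq S v)).H2 z =
        (T.Θ b).toAdd v := by
  obtain ⟨z, hz⟩ := T.Θ_mem hb
  exact ⟨z, fun v => congrFun hz v⟩

end Twr

/-- **Piece D3**: `HG2` over `ℚ`, in terms of `localGaloisToGlobal`. -/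
theorem hg2 {p : ℕ} [hp : Fact p.Prime] (hp2 : p ≠ 2) {S : Finset Nat.Primes}
    (hpS : (⟨p, hp.out⟩ : Nat.Primes) ∈ S) :
    HG2 (unram S) (cycloChar p) (fun v : S => Lq v)
      (fun v : S => localGaloisToGlobal ((v : Nat.Primes) : ℕ)) (fun v : S => cont_Lq S v) := by
  intro N hN
  obtain ⟨T, hT⟩ := exists_Twr hp2 hpS hN
  refine ⟨T.U, T.U_mem, hT, T.U_le_ker, ?_⟩
  obtain ⟨h1, h0⟩ := second_inequality hp.out hp2 T.hξK' T.eS T.a_ne_zero T.eS_injective
  refine hg2_count (unram S) (cycloChar p) (fun v : S => Lq v)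
    (fun v : S => localGaloisToGlobal ((v : Nat.Primes) : ℕ)) (fun v : S => cont_Lq S v)
    T.U T.finite_Tq (fun b v => (T.Θ b).toAdd v) ?_ ?_ (globNorm p T.a T.eS) h0
    (by rwa [Nat.card_zmod]) (fun b hb => T.exists_loc hb)
  · intro a b v
    exact congrFun (congrArg Multiplicative.toAdd (map_mul T.Θ a b)) v
  · intro t
    obtain ⟨b, hb⟩ := T.Θ_surjective (Multiplicative.ofAdd t)
    exact ⟨b, congrArg Multiplicative.toAdd hb⟩

/-- **Piece D3**: `HG2` over `ℚ`, for the frozen local groups. -/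
theorem hg2_prime {p : ℕ} [hp : Fact p.Prime] (hp2 : p ≠ 2) {S : Finset Nat.Primes}
    (hpS : (⟨p, hp.out⟩ : Nat.Primes) ∈ S) :
    HG2 (unram S) (cycloChar p) (fun v : S => lvlOver (primeLocalToGlobal v.1))
      (fun v : S => primeLocalToGlobal v.1) (cont_locS S) :=
  hg2 hp2 hpS

end Fermat.Agent.CFT.D3
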